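import Fermat.Agent.TF.Main
import Fermat.Agent.GaloisBasics.FrobeniusExists

/-!
# The congruence of the traces of Frobenius
-/

set_option autoImplicit false
set_option linter.unusedSectionVars false
set_option linter.unusedVariables false

noncomputable section

namespace Fermat.Agent.TF

open WeierstrassCurve WeierstrassCurve.Affine WeierstrassCurve.Affine.Point Fermat.Agent.EC
  Fermat.Agent.EFrob

/-- The field of algebraic numbers. -/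
local notation "Kb" => AlgebraicClosure ℚ
/-- The absolute Galois group. -/
local notation "GQ" => (AlgebraicClosure ℚ ≃ₐ[ℚ] AlgebraicClosure ℚ)

theorem trace_of {F V : Type*} [Field F] [AddCommGroup V] [Module F V]
    (hV : Module.finrank F V = 2) {r s : V} (hrs : LinearIndependent F ![r, s]) (f : V →ₗ[F] V)
    {a b a' b' : F} (h1 : f r = a • r + b • s) (h2 : f s = a' • r + b' • s) :
    LinearMap.trace F V f = a + b' := by
  let B := basisOfLinearIndependentOfCardEqFinrank hrs (by rw [hV, Fintype.card_fin])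
  have hB0 : B 0 = r := by
    rw [coe_basisOfLinearIndependentOfCardEqFinrank]; rfl
  have hB1 : B 1 = s := by
    rw [coe_basisOfLinearIndependentOfCardEqFinrank]; rfl
  rw [LinearMap.trace_eq_matrix_trace F B f, Matrix.trace_fin_two, LinearMap.toMatrix_apply,
    LinearMap.toMatrix_apply, hB0, hB1, h1, h2, ← hB0, ← hB1]
  simp

variable {W : WeierstrassCurve ℤ} {c d m : ℤ} {x y : Kb} (hc : hF x y = (c : Kb))
  (hd : tF x y = (d : Kb)) {ζ : Kb} (hζ : 1 + ζ + ζ ^ 2 + ζ ^ 3 + ζ ^ 4 = 0)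

theorem finrank_five (hΔ : W.Δ ≠ 0) [Fact (Nat.Prime 5)] :
    Module.finrank (ZMod 5) (TorsP (W.map (Int.castRingHom ℚ)) 5) = 2 := by
  have hell' : (W.map (Int.castRingHom ℚ)).IsElliptic := by
    constructor
    rw [WeierstrassCurve.map_Δ, isUnit_iff_ne_zero]
    intro h
    apply hΔ
    rw [eq_intCast, Int.cast_eq_zero] at h
    exact h
  exact finrank_torsion (E := W.map (Int.castRingHom ℚ)) (p := 5)

include hc hd hζ in
/-- The trace on the member of parameter `m` of the family. -/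
theorem trace_member (hΔ : W.Δ ≠ 0) (h4 : W.c₄ = SW.p4 c d 1 m) (h6 : W.c₆ = SW.p6 c d 1 m)
    [Fact (Nat.Prime 5)] {σ : GQ} {a b a' b' : ℤ}
    (h1 : mk ((SW.p4 c d 1 m : ℤ) : Kb) ((SW.p6 c d 1 m : ℤ) : Kb) (σ (x1 (X' x y m) (Y' x y m)))
      (σ (y1 (X' x y m) (Y' x y m))) =
      a • RR ((SW.p4 c d 1 m : ℤ) : Kb) ((SW.p6 c d 1 m : ℤ) : Kb) (X' x y m) (Y' x y m) +
      b • SS ζ ((SW.p4 c d 1 m : ℤ) : Kb) ((SW.p6 c d 1 m : ℤ) : Kb) (X' x y m) (Y' x y m))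
    (h2 : mk ((SW.p4 c d 1 m : ℤ) : Kb) ((SW.p6 c d 1 m : ℤ) : Kb)
      (σ (xs5 ζ (X' x y m) (Y' x y m) / 5)) (σ (ys5 ζ (X' x y m) (Y' x y m) / 5)) =
      a' • RR ((SW.p4 c d 1 m : ℤ) : Kb) ((SW.p6 c d 1 m : ℤ) : Kb) (X' x y m) (Y' x y m) +
      b' • SS ζ ((SW.p4 c d 1 m : ℤ) : Kb) ((SW.p6 c d 1 m : ℤ) : Kb) (X' x y m) (Y' x y m)) :
    LinearMap.trace (ZMod 5) _
      (galoisRepModuleEnd ℚ (W.map (Int.castRingHom ℚ)).toAffine 5 σ) =
      ((a + b' : ℤ) : ZMod 5) := by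
  obtain ⟨g1, g2⟩ := hF_XY hc hd m
  rw [← h4] at h1 h2 g1
  rw [← h6] at h1 h2 g2
  have hne := c4c6_ne hΔ
  have o1 := on1 g1 g2
  have o2 := onS g1 g2 hne hζ
  have t1 : (5 : ℕ) • Psi W (RR (W.c₄ : Kb) (W.c₆ : Kb) (X' x y m) (Y' x y m)) = 0 := by
    rw [← map_nsmul, fiveR g1 g2 hne, _root_.map_zero]
  have t2 : (5 : ℕ) • Psi W (SS ζ (W.c₄ : Kb) (W.c₆ : Kb) (X' x y m) (Y' x y m)) = 0 := by
    rw [← map_nsmul, fiveS g1 g2 hne hζ, _root_.map_zero]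
  let r : TorsP (W.map (Int.castRingHom ℚ)) 5 := ⟨_, mem_torsionBy_iff'.mpr t1⟩
  let s : TorsP (W.map (Int.castRingHom ℚ)) 5 := ⟨_, mem_torsionBy_iff'.mpr t2⟩
  have hlin : LinearIndependent (ZMod 5) ![r, s] := by
    rw [LinearIndependent.pair_iff]
    intro α β hαβ
    have e1 : α.val • r + β.val • s = 0 := by
      rw [← hαβ, ← Nat.cast_smul_eq_nsmul (ZMod 5), ← Nat.cast_smul_eq_nsmul (ZMod 5),
        ZMod.natCast_zmod_val, ZMod.natCast_zmod_val]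
    have e2 := congrArg (fun z : TorsP (W.map (Int.castRingHom ℚ)) 5 =>
      (z : ((W.map (Int.castRingHom ℚ))⁄Kb).Point)) e1
    have e3 : α.val • Psi W (RR (W.c₄ : Kb) (W.c₆ : Kb) (X' x y m) (Y' x y m)) +
        β.val • Psi W (SS ζ (W.c₄ : Kb) (W.c₆ : Kb) (X' x y m) (Y' x y m)) = 0 := e2
    rw [← map_nsmul, ← map_nsmul, ← map_add, EmbeddingLike.map_eq_zero_iff] at e3
    obtain ⟨e4, e5⟩ := indep g1 g2 hne hζ e3
    have hα := ZMod.val_lt α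
    have hβ := ZMod.val_lt β
    exact ⟨(ZMod.val_eq_zero α).mp (Nat.eq_zero_of_dvd_of_lt e4 hα),
      (ZMod.val_eq_zero β).mp (Nat.eq_zero_of_dvd_of_lt e5 hβ)⟩
  rw [Int.cast_add]
  refine trace_of (b := (b : ZMod 5)) (a' := (a' : ZMod 5)) (finrank_five hΔ) hlin _ ?_ ?_
  · apply Subtype.ext
    change σ • Psi W (RR _ _ _ _) = _
    rw [RR, Psi_mk hΔ o1 σ, h1, map_add, map_zsmul, map_zsmul, Int.cast_smul_eq_zsmul,
      Int.cast_smul_eq_zsmul]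
    rfl
  · apply Subtype.ext
    change σ • Psi W (SS _ _ _ _ _) = _
    rw [SS, Psi_mk hΔ o2 σ, h2, map_add, map_zsmul, map_zsmul, Int.cast_smul_eq_zsmul,
      Int.cast_smul_eq_zsmul]
    rfl

theorem exists_zeta : ∃ ζ : Kb, 1 + ζ + ζ ^ 2 + ζ ^ 3 + ζ ^ 4 = 0 := by
  haveI : Fact (Nat.Prime 5) := ⟨by norm_num⟩
  obtain ⟨ζ, hζ⟩ := IsAlgClosed.exists_root (Polynomial.cyclotomic 5 Kb) (by
    rw [Polynomial.degree_cyclotomic]
    decide)
  refine ⟨ζ, ?_⟩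
  rw [Polynomial.IsRoot, Polynomial.cyclotomic_prime _ 5, Polynomial.eval_geom_sum,
    Finset.sum_range_succ, Finset.sum_range_succ, Finset.sum_range_succ, Finset.sum_range_succ,
    Finset.sum_range_succ, Finset.sum_range_zero, zero_add, pow_zero, pow_one] at hζ
  exact hζ

/-- **Congruence modulo `5`** of the members of the family. -/
theorem ap_congr (W W₂ : WeierstrassCurve ℤ) (hΔ : W.Δ ≠ 0) (hΔ₂ : W₂.Δ ≠ 0) (m : ℤ)
    (h4 : W₂.c₄ = SW.p4 W.c₄ W.c₆ 1 m) (h6 : W₂.c₆ = SW.p6 W.c₄ W.c₆ 1 m) :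
    ∀ ℓ : ℕ, ℓ.Prime → W.IsGoodPrimeFor ℓ → W₂.IsGoodPrimeFor ℓ → ℓ ≠ 5 →
      (5 : ℤ) ∣ (W₂.apOfModel ℓ - W.apOfModel ℓ) := by
  intro ℓ hℓ hg hg₂ hℓ5
  haveI : Fact ℓ.Prime := ⟨hℓ⟩
  haveI : Fact (Nat.Prime 5) := ⟨by norm_num⟩
  obtain ⟨ζ, hζ⟩ := exists_zeta
  have hne := c4c6_ne hΔ
  obtain ⟨x, y, hc, hd⟩ := SW.exists_ico (K := Kb) (by norm_num) (by norm_num) (W.c₄ : Kb)
    (W.c₆ : Kb) hne
  obtain ⟨A, hA⟩ := GaloisBasics.exists_liesOverPrime hℓ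
  obtain ⟨σ, hσ⟩ := GaloisBasics.exists_isFrobeniusAt hℓ A hA
  obtain ⟨a, b, a', b', hab⟩ := gal_RS hc hd hne hζ σ
  have h0 := hab 0 (by rw [SW.p4_one_zero, SW.p6_one_zero]; exact hne)
  have hm := hab m (by rw [← h4, ← h6]; exact c4c6_ne hΔ₂)
  have e0 := trace_member hc hd hζ (m := 0) hΔ (SW.p4_one_zero _ _).symm (SW.p6_one_zero _ _).symm
    (σ := σ) h0.1 h0.2
  have em := trace_member hc hd hζ hΔ₂ h4 h6 (σ := σ) hm.1 hm.2
  rw [(trace_det_frobenius hg (Ne.symm hℓ5) hA hσ).1] at e0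
  rw [(trace_det_frobenius hg₂ (Ne.symm hℓ5) hA hσ).1] at em
  have key : ((W₂.apOfModel ℓ - W.apOfModel ℓ : ℤ) : ZMod 5) = 0 := by
    rw [Int.cast_sub, e0, em, sub_self]
  exact (ZMod.intCast_zmod_eq_zero_iff_dvd _ 5).mp key

end Fermat.Agent.TF
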