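import Fermat.Agent.TF.Sec
import Fermat.Agent.EC.Reducible

/-!
# Polynomial families of 5-torsion points
-/

set_option autoImplicit false
set_option linter.unusedSectionVars false
set_option linter.unusedVariables false

noncomputable section

namespace Fermat.Agent.TF

open WeierstrassCurve WeierstrassCurve.Affine Polynomial

variable {K : Type*} [Field K] [DecidableEq K] [CharZero K]

section span

variable [IsAlgClosed K] {c d x y : K} (hc : hF x y = c) (hd : tF x y = d) (h : c ^ 3 ≠ d ^ 2)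
  {ζ : K} (hζ : 1 + ζ + ζ ^ 2 + ζ ^ 3 + ζ ^ 4 = 0)

include h in
theorem card_five : Nat.card {P : (EE c d).toAffine.Point // 5 • P = 0} = 25 := by
  haveI := isElliptic_EE h
  have h1 := ECT.card_torsion (W := EE c d) 5 (by norm_num)
  rw [h1]
  norm_num

include hc hd h hζ in
/-- The 5-torsion is spanned by `R` and `S`. -/
theorem span_RS {P : (EE c d).toAffine.Point} (hP : 5 • P = 0) :
    ∃ u : Fin 5 × Fin 5, P = (u.1 : ℕ) • RR c d x y + (u.2 : ℕ) • SS ζ c d x y := by
  let g : Fin 5 × Fin 5 → {P : (EE c d).toAffine.Point // 5 • P = 0} := fun u =>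
    ⟨(u.1 : ℕ) • RR c d x y + (u.2 : ℕ) • SS ζ c d x y, by
      rw [smul_add, smul_comm 5, smul_comm 5, fiveR hc hd h, fiveS hc hd h hζ, smul_zero,
        smul_zero, add_zero]⟩
  have hcard : Nat.card (Fin 5 × Fin 5) = Nat.card {P : (EE c d).toAffine.Point // 5 • P = 0} := by
    rw [card_five h, Nat.card_prod, Nat.card_fin]
  haveI : Finite {P : (EE c d).toAffine.Point // 5 • P = 0} :=
    Nat.finite_of_card_ne_zero (by rw [card_five h]; norm_num)
  have hinj : Function.Injective g := by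
    intro u w huw
    have h1 : (u.1 : ℕ) • RR c d x y + (u.2 : ℕ) • SS ζ c d x y =
        (w.1 : ℕ) • RR c d x y + (w.2 : ℕ) • SS ζ c d x y := congrArg Subtype.val huw
    have h5R := fiveR hc hd h
    have h5S := fiveS hc hd h hζ
    have h2 : ((u.1 : ℕ) + (5 - w.1)) • RR c d x y + ((u.2 : ℕ) + (5 - w.2)) • SS ζ c d x y = 0 := by
      have h3 : ∀ (P : (EE c d).toAffine.Point) (_ : 5 • P = 0) (n m : ℕ) (_ : m ≤ 5),
          (n + (5 - m)) • P = n • P - m • P := by
        intro P hP n m hm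
        rw [add_smul, sub_eq_add_neg]
        congr 1
        rw [eq_neg_iff_add_eq_zero, ← add_smul, Nat.sub_add_cancel hm, hP]
      rw [h3 _ h5R _ _ w.1.2.le, h3 _ h5S _ _ w.2.2.le]
      rw [sub_add_sub_comm, h1, sub_self]
    obtain ⟨h3, h4⟩ := indep hc hd h hζ h2
    have e1 := u.1.2; have e2 := u.2.2; have e3 := w.1.2; have e4 := w.2.2
    ext <;> omega
  have hbij := (Nat.bijective_iff_injective_and_card g).mpr ⟨hinj, hcard⟩
  obtain ⟨u, hu⟩ := hbij.2 ⟨P, hP⟩
  exact ⟨u, (congrArg Subtype.val hu).symm⟩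

end span

/-- polynomial families -/
def IsPF (c d : K[X]) (T : ∀ m : K, (EE (c.eval m) (d.eval m)).toAffine.Point) : Prop :=
  ∃ FX FY : K[X], ∀ m, c.eval m ^ 3 ≠ d.eval m ^ 2 →
    On (c.eval m) (d.eval m) (FX.eval m) (FY.eval m) ∧
      T m = mk (c.eval m) (d.eval m) (FX.eval m) (FY.eval m)

variable {c d : K[X]} {T T' : ∀ m : K, (EE (c.eval m) (d.eval m)).toAffine.Point}

theorem IsPF.neg (hT : IsPF c d T) : IsPF c d fun m => - T m := by
  obtain ⟨FX, FY, h⟩ := hT
  refine ⟨FX, -FY, fun m hm => ?_⟩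
  obtain ⟨h1, h2⟩ := h m hm
  rw [eval_neg]
  exact ⟨On.neg hm h1, by beta_reduce; rw [h2, mk_neg hm h1]⟩

theorem IsPF.congr (hT : IsPF c d T) (h : ∀ m, c.eval m ^ 3 ≠ d.eval m ^ 2 → T' m = T m) :
    IsPF c d T' := by
  obtain ⟨FX, FY, h'⟩ := hT
  exact ⟨FX, FY, fun m hm => ⟨(h' m hm).1, by rw [h m hm, (h' m hm).2]⟩⟩

/-- identity principle -/
theorem IsPF.eq_of_infinite (hT : IsPF c d T) (hT' : IsPF c d T')
    (hinf : {m | c.eval m ^ 3 ≠ d.eval m ^ 2 ∧ T m = T' m}.Infinite) :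
    ∀ m, c.eval m ^ 3 ≠ d.eval m ^ 2 → T m = T' m := by
  obtain ⟨FX, FY, h⟩ := hT
  obtain ⟨GX, GY, g⟩ := hT'
  have key : ∀ m ∈ {m | c.eval m ^ 3 ≠ d.eval m ^ 2 ∧ T m = T' m},
      FX.eval m = GX.eval m ∧ FY.eval m = GY.eval m := by
    rintro m ⟨hm, he⟩
    rw [(h m hm).2, (g m hm).2, mk_inj hm (h m hm).1 (g m hm).1] at he
    exact he
  have h1 : FX = GX := Polynomial.eq_of_infinite_eval_eq _ _ (hinf.mono fun m hm => (key m hm).1)
  have h2 : FY = GY := Polynomial.eq_of_infinite_eval_eq _ _ (hinf.mono fun m hm => (key m hm).2)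
  subst h1 h2
  intro m hm
  rw [(h m hm).2, (g m hm).2]

section forms

variable {R S : Type*} [CommRing R] [CommRing S] (φ : R →+* S)

theorem map_hF (x y : R) : φ (hF x y) = hF (φ x) (φ y) := by
  unfold hF; simp only [map_add, map_sub, map_mul, map_pow, map_ofNat]

theorem map_tF (x y : R) : φ (tF x y) = tF (φ x) (φ y) := by
  unfold tF; simp only [map_add, map_sub, map_mul, map_pow, map_ofNat, map_neg]

theorem map_fF (x y : R) : φ (fF x y) = fF (φ x) (φ y) := by
  unfold fF; simp only [map_add, map_sub, map_mul, map_pow, map_ofNat]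

theorem map_fx (x y : R) : φ (fx x y) = fx (φ x) (φ y) := by
  unfold fx; simp only [map_add, map_sub, map_mul, map_pow, map_ofNat]

theorem map_fy (x y : R) : φ (fy x y) = fy (φ x) (φ y) := by
  unfold fy; simp only [map_add, map_sub, map_mul, map_pow, map_ofNat]

theorem map_x1 (x y : R) : φ (x1 x y) = x1 (φ x) (φ y) := by
  unfold x1; simp only [map_add, map_sub, map_mul, map_pow, map_ofNat]

theorem map_y1 (x y : R) : φ (y1 x y) = y1 (φ x) (φ y) := by
  unfold y1; simp only [map_add, map_sub, map_mul, map_pow, map_ofNat]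

theorem map_x2 (x y : R) : φ (x2 x y) = x2 (φ x) (φ y) := by
  unfold x2; simp only [map_add, map_sub, map_mul, map_pow, map_ofNat]

theorem map_y2 (x y : R) : φ (y2 x y) = y2 (φ x) (φ y) := by
  unfold y2; simp only [map_add, map_sub, map_mul, map_pow, map_ofNat, map_neg]

theorem map_xs5 (ζ x y : R) : φ (xs5 ζ x y) = xs5 (φ ζ) (φ x) (φ y) := by
  unfold xs5; simp only [map_add, map_sub, map_mul, map_pow, map_ofNat, map_neg]

theorem map_ys5 (ζ x y : R) : φ (ys5 ζ x y) = ys5 (φ ζ) (φ x) (φ y) := by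
  unfold ys5; simp only [map_add, map_sub, map_mul, map_pow, map_ofNat, map_neg]

theorem map_xt5 (ζ x y : R) : φ (xt5 ζ x y) = xt5 (φ ζ) (φ x) (φ y) := by
  unfold xt5; simp only [map_add, map_sub, map_mul, map_pow, map_ofNat, map_neg]

theorem map_yt5 (ζ x y : R) : φ (yt5 ζ x y) = yt5 (φ ζ) (φ x) (φ y) := by
  unfold yt5; simp only [map_add, map_sub, map_mul, map_pow, map_ofNat, map_neg]

end forms

section fam

variable {p q : K[X]} (hc : hF p q = c) (hd : tF p q = d)

include hc in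
theorem evc (m : K) : hF (p.eval m) (q.eval m) = c.eval m := by
  rw [← hc]; exact (map_hF (evalRingHom m) p q).symm

include hd in
theorem evd (m : K) : tF (p.eval m) (q.eval m) = d.eval m := by
  rw [← hd]; exact (map_tF (evalRingHom m) p q).symm

include hc hd

theorem pf_R : IsPF c d fun m => RR (c.eval m) (d.eval m) (p.eval m) (q.eval m) := by
  refine ⟨x1 p q, y1 p q, fun m hm => ?_⟩
  have e1 : (x1 p q).eval m = x1 (p.eval m) (q.eval m) := map_x1 (evalRingHom m) p q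
  have e2 : (y1 p q).eval m = y1 (p.eval m) (q.eval m) := map_y1 (evalRingHom m) p q
  rw [e1, e2]
  exact ⟨on1 (evc hc m) (evd hd m), rfl⟩

theorem pf_2R : IsPF c d fun m => 2 • RR (c.eval m) (d.eval m) (p.eval m) (q.eval m) := by
  refine ⟨x2 p q, y2 p q, fun m hm => ?_⟩
  have e1 : (x2 p q).eval m = x2 (p.eval m) (q.eval m) := map_x2 (evalRingHom m) p q
  have e2 : (y2 p q).eval m = y2 (p.eval m) (q.eval m) := map_y2 (evalRingHom m) p q
  rw [e1, e2]
  exact ⟨on2 (evc hc m) (evd hd m), by beta_reduce; rw [two_smul, dblR (evc hc m) (evd hd m) hm]⟩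

variable {ζ : K} (hζ : 1 + ζ + ζ ^ 2 + ζ ^ 3 + ζ ^ 4 = 0)
include hζ

theorem pf_S : IsPF c d fun m => SS ζ (c.eval m) (d.eval m) (p.eval m) (q.eval m) := by
  refine ⟨C (1 / 5) * xs5 (C ζ) p q, C (1 / 5) * ys5 (C ζ) p q, fun m hm => ?_⟩
  have e1 : (xs5 (C ζ) p q).eval m = xs5 ζ (p.eval m) (q.eval m) := by
    have := map_xs5 (evalRingHom m) (C ζ) p q
    rw [coe_evalRingHom, eval_C] at this
    exact this
  have e2 : (ys5 (C ζ) p q).eval m = ys5 ζ (p.eval m) (q.eval m) := by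
    have := map_ys5 (evalRingHom m) (C ζ) p q
    rw [coe_evalRingHom, eval_C] at this
    exact this
  rw [eval_mul, eval_mul, eval_C, e1, e2, one_div, inv_mul_eq_div, inv_mul_eq_div]
  exact ⟨onS (evc hc m) (evd hd m) hm hζ, rfl⟩

theorem pf_2S : IsPF c d fun m => 2 • SS ζ (c.eval m) (d.eval m) (p.eval m) (q.eval m) := by
  refine ⟨C (1 / 5) * xt5 (C ζ) p q, C (1 / 5) * yt5 (C ζ) p q, fun m hm => ?_⟩
  have e1 : (xt5 (C ζ) p q).eval m = xt5 ζ (p.eval m) (q.eval m) := by
    have := map_xt5 (evalRingHom m) (C ζ) p q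
    rw [coe_evalRingHom, eval_C] at this
    exact this
  have e2 : (yt5 (C ζ) p q).eval m = yt5 ζ (p.eval m) (q.eval m) := by
    have := map_yt5 (evalRingHom m) (C ζ) p q
    rw [coe_evalRingHom, eval_C] at this
    exact this
  rw [eval_mul, eval_mul, eval_C, e1, e2, one_div, inv_mul_eq_div, inv_mul_eq_div]
  exact ⟨on_dblS (evc hc m) (evd hd m) hm hζ, by
    beta_reduce; rw [two_smul, (dblS (evc hc m) (evd hd m) hm hζ).1]⟩

/-- all the non-trivial combinations are polynomial families -/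
theorem pf_comb (a b : ℕ) (hab : ¬ (5 ∣ a ∧ 5 ∣ b)) :
    IsPF c d fun m => a • RR (c.eval m) (d.eval m) (p.eval m) (q.eval m) +
      b • SS ζ (c.eval m) (d.eval m) (p.eval m) (q.eval m) := by
  have hz : ∀ k : ℕ, hF (C (ζ ^ (3 * k)) * p) (C (ζ ^ (2 * k)) * q) = c ∧
      tF (C (ζ ^ (3 * k)) * p) (C (ζ ^ (2 * k)) * q) = d := by
    intro k
    induction k with
    | zero => simp [hc, hd]
    | succ k ih =>
      have hζ' : (1 : K[X]) + C ζ + C ζ ^ 2 + C ζ ^ 3 + C ζ ^ 4 = 0 := by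
        rw [← C_1, ← C_pow, ← C_pow, ← C_pow, ← C_add, ← C_add, ← C_add, ← C_add, hζ, C_0]
      have e1 : C (ζ ^ (3 * (k + 1))) * p = C ζ ^ 3 * (C (ζ ^ (3 * k)) * p) := by
        rw [← C_pow, ← mul_assoc, ← C_mul]
        congr 2
        ring
      have e2 : C (ζ ^ (2 * (k + 1))) * q = C ζ ^ 2 * (C (ζ ^ (2 * k)) * q) := by
        rw [← C_pow, ← mul_assoc, ← C_mul]
        congr 2
        ring
      rw [e1, e2, hF_g hζ', tF_g hζ']
      exact ih
  -- reduction modulo five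
  have hred : ∀ m, c.eval m ^ 3 ≠ d.eval m ^ 2 → ∀ a b a' b' : ℕ, a % 5 = a' % 5 → b % 5 = b' % 5 →
      a • RR (c.eval m) (d.eval m) (p.eval m) (q.eval m) +
      b • SS ζ (c.eval m) (d.eval m) (p.eval m) (q.eval m) =
      a' • RR (c.eval m) (d.eval m) (p.eval m) (q.eval m) +
      b' • SS ζ (c.eval m) (d.eval m) (p.eval m) (q.eval m) := by
    intro m hm a b a' b' ha hb
    have h0 : ∀ (P : (EE (c.eval m) (d.eval m)).toAffine.Point), 5 • P = 0 → ∀ n n' : ℕ,
        n % 5 = n' % 5 → n • P = n' • P := by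
      intro P hP n n' hn
      have h1 : ∀ n : ℕ, n • P = (n % 5) • P := by
        intro n
        conv_lhs => rw [← Nat.mod_add_div n 5]
        rw [add_smul, mul_comm, mul_smul, hP, smul_zero, add_zero]
      rw [h1 n, h1 n', hn]
    rw [h0 _ (fiveR (evc hc m) (evd hd m) hm) a a' ha,
      h0 _ (fiveS (evc hc m) (evd hd m) hm hζ) b b' hb]
  have P1 : ∀ k : ℕ, IsPF c d fun m => 1 • RR (c.eval m) (d.eval m) (p.eval m) (q.eval m) +
      k • SS ζ (c.eval m) (d.eval m) (p.eval m) (q.eval m) := by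
    intro k
    refine (pf_R (hz k).1 (hz k).2).congr fun m hm => ?_
    rw [eval_mul, eval_mul, eval_C, eval_C, (RR_gk (evc hc m) (evd hd m) hm hζ k).1, one_smul]
  have P2 : ∀ k : ℕ, IsPF c d fun m => 2 • RR (c.eval m) (d.eval m) (p.eval m) (q.eval m) +
      (2 * k) • SS ζ (c.eval m) (d.eval m) (p.eval m) (q.eval m) := by
    intro k
    refine (pf_2R (hz k).1 (hz k).2).congr fun m hm => ?_
    rw [eval_mul, eval_mul, eval_C, eval_C, (RR_gk (evc hc m) (evd hd m) hm hζ k).1, smul_add,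
      mul_smul]
  have P3 : IsPF c d fun m => 0 • RR (c.eval m) (d.eval m) (p.eval m) (q.eval m) +
      1 • SS ζ (c.eval m) (d.eval m) (p.eval m) (q.eval m) :=
    (pf_S hc hd hζ).congr fun m hm => by rw [zero_smul, zero_add, one_smul]
  have P4 : IsPF c d fun m => 0 • RR (c.eval m) (d.eval m) (p.eval m) (q.eval m) +
      2 • SS ζ (c.eval m) (d.eval m) (p.eval m) (q.eval m) :=
    (pf_2S hc hd hζ).congr fun m hm => by rw [zero_smul, zero_add]
  have N : ∀ a b a' b' : ℕ, (a + a') % 5 = 0 → (b + b') % 5 = 0 →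
      (IsPF c d fun m => a • RR (c.eval m) (d.eval m) (p.eval m) (q.eval m) +
      b • SS ζ (c.eval m) (d.eval m) (p.eval m) (q.eval m)) →
      IsPF c d fun m => a' • RR (c.eval m) (d.eval m) (p.eval m) (q.eval m) +
      b' • SS ζ (c.eval m) (d.eval m) (p.eval m) (q.eval m) := by
    intro a b a' b' ha hb hP
    refine hP.neg.congr fun m hm => ?_
    rw [eq_neg_iff_add_eq_zero]
    have h1 := hred m hm (a' + a) (b' + b) 0 0 (by omega) (by omega)
    rw [zero_smul, zero_smul, add_zero] at h1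
    rw [← h1, add_smul, add_smul]
    abel
  have M : ∀ a b a' b' : ℕ, a % 5 = a' % 5 → b % 5 = b' % 5 →
      (IsPF c d fun m => a • RR (c.eval m) (d.eval m) (p.eval m) (q.eval m) +
      b • SS ζ (c.eval m) (d.eval m) (p.eval m) (q.eval m)) →
      IsPF c d fun m => a' • RR (c.eval m) (d.eval m) (p.eval m) (q.eval m) +
      b' • SS ζ (c.eval m) (d.eval m) (p.eval m) (q.eval m) := by
    intro a b a' b' ha hb hP
    exact hP.congr fun m hm => hred m hm _ _ _ _ ha.symm hb.symm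
  have ha5 := Nat.mod_lt a (show 0 < 5 by norm_num)
  have hb5 := Nat.mod_lt b (show 0 < 5 by norm_num)
  rcases (show a % 5 = 0 ∨ a % 5 = 1 ∨ a % 5 = 2 ∨ a % 5 = 3 ∨ a % 5 = 4 by omega) with
    ha | ha | ha | ha | ha
  · rcases (show b % 5 = 1 ∨ b % 5 = 2 ∨ b % 5 = 3 ∨ b % 5 = 4 by omega) with hb | hb | hb | hb
    · exact M 0 1 a b (by omega) (by omega) P3
    · exact M 0 2 a b (by omega) (by omega) P4
    · exact N 0 2 a b (by omega) (by omega) P4
    · exact N 0 1 a b (by omega) (by omega) P3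
  · exact M 1 b a b (by omega) rfl (P1 b)
  · exact M 2 (2 * (3 * b)) a b (by omega) (by omega) (P2 (3 * b))
  · exact N 2 (2 * (2 * b)) a b (by omega) (by omega) (P2 (2 * b))
  · exact N 1 (4 * b) a b (by omega) (by omega) (P1 (4 * b))

/-- **Rigidity**: polynomial families of `R`-points are constant combinations. -/
theorem rigid [IsAlgClosed K] (hcd : c ^ 3 ≠ d ^ 2) {p' q' : K[X]} (hc' : hF p' q' = c)
    (hd' : tF p' q' = d) :
    ∃ u : Fin 5 × Fin 5, ∀ m, c.eval m ^ 3 ≠ d.eval m ^ 2 →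
      RR (c.eval m) (d.eval m) (p'.eval m) (q'.eval m) =
        (u.1 : ℕ) • RR (c.eval m) (d.eval m) (p.eval m) (q.eval m) +
        (u.2 : ℕ) • SS ζ (c.eval m) (d.eval m) (p.eval m) (q.eval m) := by
  classical
  set G : Set K := {m | c.eval m ^ 3 ≠ d.eval m ^ 2} with hG
  have hfin : Gᶜ.Finite := by
    have h1 : c ^ 3 - d ^ 2 ≠ 0 := sub_ne_zero.mpr hcd
    refine ((c ^ 3 - d ^ 2).roots.toFinset.finite_toSet).subset fun m hm => ?_
    have h2 : c.eval m ^ 3 = d.eval m ^ 2 := by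
      by_contra h3
      exact hm h3
    rw [Finset.mem_coe, Multiset.mem_toFinset, mem_roots h1, IsRoot, eval_sub, eval_pow, eval_pow,
      h2, sub_self]
  have hinf : G.Infinite := by
    haveI := IsAlgClosed.instInfinite (K := K)
    exact Set.infinite_of_finite_compl hfin
  haveI := hinf.to_subtype
  have key : ∀ m : G, ∃ u : Fin 5 × Fin 5,
      RR (c.eval (m : K)) (d.eval (m : K)) (p'.eval (m : K)) (q'.eval (m : K)) =
        (u.1 : ℕ) • RR (c.eval (m : K)) (d.eval (m : K)) (p.eval (m : K)) (q.eval (m : K)) +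
        (u.2 : ℕ) • SS ζ (c.eval (m : K)) (d.eval (m : K)) (p.eval (m : K)) (q.eval (m : K)) :=
    fun m => span_RS (evc hc (m : K)) (evd hd (m : K)) m.2 hζ
      (fiveR (evc hc' (m : K)) (evd hd' (m : K)) m.2)
  choose f hf using key
  obtain ⟨u, hu⟩ := Finite.exists_infinite_fiber f
  refine ⟨u, ?_⟩
  have hne : ¬ (5 ∣ (u.1 : ℕ) ∧ 5 ∣ (u.2 : ℕ)) := by
    rintro ⟨h1, h2⟩
    have h3 := u.1.2
    have h4 := u.2.2
    have h5 : (u.1 : ℕ) = 0 := by omega
    have h6 : (u.2 : ℕ) = 0 := by omega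
    obtain ⟨m, hm⟩ : Nonempty (f ⁻¹' {u}) := inferInstance
    have h7 := hf m
    rw [show f m = u from hm, h5, h6, zero_smul, zero_smul, add_zero] at h7
    exact RR_ne_zero (evc hc' (m : K)) (evd hd' (m : K)) m.2 h7
  refine (pf_R hc' hd').eq_of_infinite (pf_comb hc hd hζ u.1 u.2 hne) ?_
  have h1 : (Subtype.val '' (f ⁻¹' {u}) : Set K).Infinite := by
    apply Set.Infinite.image (Subtype.val_injective.injOn)
    exact Set.infinite_coe_iff.mp hu
  refine h1.mono ?_
  rintro _ ⟨m, hm, rfl⟩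
  refine ⟨m.2, ?_⟩
  have h7 := hf m
  rw [show f m = u from hm] at h7
  exact h7

end fam

end Fermat.Agent.TF
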