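import Mathlib

/-!
# The icosahedral forms and the universal 5-torsion sections
-/

set_option autoImplicit false

namespace Fermat.Agent.TF

section Ring

variable {R : Type*} [CommRing R]

/-- The form of degree `12`. -/
def fF (x y : R) : R := x ^ 11 * y - 11 * x ^ 6 * y ^ 6 - x * y ^ 11

/-- The form of degree `20`. -/
def hF (x y : R) : R :=
  x ^ 20 + 228 * x ^ 15 * y ^ 5 + 494 * x ^ 10 * y ^ 10 - 228 * x ^ 5 * y ^ 15 + y ^ 20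

/-- The form of degree `30`. -/
def tF (x y : R) : R :=
  -((x ^ 10 + y ^ 10) *
    (x ^ 20 - 522 * x ^ 15 * y ^ 5 - 10006 * x ^ 10 * y ^ 10 + 522 * x ^ 5 * y ^ 15 + y ^ 20))

theorem syz (x y : R) : hF x y ^ 3 - tF x y ^ 2 = 1728 * fF x y ^ 5 := by
  unfold hF tF fF
  ring

/-- `∂f/∂x` -/
def fx (x y : R) : R := 11 * x ^ 10 * y - 66 * x ^ 5 * y ^ 6 - y ^ 11

/-- `∂f/∂y` -/
def fy (x y : R) : R := x ^ 11 - 66 * x ^ 6 * y ^ 5 - 11 * x * y ^ 10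

/-- `X(R)` -/
def x1 (x y : R) : R :=
  3 * (y ^ 10 - 12 * x * y ^ 9 + 24 * x ^ 2 * y ^ 8 - 36 * x ^ 3 * y ^ 7 + 60 * x ^ 4 * y ^ 6 -
    30 * x ^ 5 * y ^ 5 + 24 * x ^ 6 * y ^ 4 + 12 * x ^ 7 * y ^ 3 + 12 * x ^ 8 * y ^ 2 + x ^ 10)

/-- `Y(R)` -/
def y1 (x y : R) : R :=
  108 * (x * y ^ 14 - 4 * x ^ 2 * y ^ 13 + 9 * x ^ 3 * y ^ 12 - 15 * x ^ 4 * y ^ 11 +
    25 * x ^ 5 * y ^ 10 - 29 * x ^ 6 * y ^ 9 + 21 * x ^ 7 * y ^ 8 - 6 * x ^ 8 * y ^ 7 +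
    5 * x ^ 9 * y ^ 6 + 4 * x ^ 11 * y ^ 4 - x ^ 12 * y ^ 3 + x ^ 13 * y ^ 2)

/-- `X(2R)` -/
def x2 (x y : R) : R :=
  3 * (y ^ 10 + 12 * x ^ 2 * y ^ 8 - 12 * x ^ 3 * y ^ 7 + 24 * x ^ 4 * y ^ 6 + 30 * x ^ 5 * y ^ 5 +
    60 * x ^ 6 * y ^ 4 + 36 * x ^ 7 * y ^ 3 + 24 * x ^ 8 * y ^ 2 + 12 * x ^ 9 * y + x ^ 10)

/-- `Y(2R)` -/
def y2 (x y : R) : R :=
  -108 * (x ^ 2 * y ^ 13 + x ^ 3 * y ^ 12 + 4 * x ^ 4 * y ^ 11 + 5 * x ^ 6 * y ^ 9 +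
    6 * x ^ 7 * y ^ 8 + 21 * x ^ 8 * y ^ 7 + 29 * x ^ 9 * y ^ 6 + 25 * x ^ 10 * y ^ 5 +
    15 * x ^ 11 * y ^ 4 + 9 * x ^ 12 * y ^ 3 + 4 * x ^ 13 * y ^ 2 + x ^ 14 * y)

/-- the slope at `R` -/
def l1 (x y : R) : R :=
  3 * (-y ^ 5 + 4 * x * y ^ 4 - 2 * x ^ 2 * y ^ 3 + 6 * x ^ 3 * y ^ 2 + 2 * x ^ 4 * y + x ^ 5)

/-- the slope at `2R` -/
def l2 (x y : R) : R :=
  3 * (-y ^ 5 + 2 * x * y ^ 4 - 6 * x ^ 2 * y ^ 3 - 2 * x ^ 3 * y ^ 2 - 4 * x ^ 4 * y - x ^ 5)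

theorem eq1 (x y : R) : y1 x y ^ 2 = x1 x y ^ 3 - 27 * hF x y * x1 x y - 54 * tF x y := by
  unfold y1 x1 hF tF
  ring

theorem eq2 (x y : R) : y2 x y ^ 2 = x2 x y ^ 3 - 27 * hF x y * x2 x y - 54 * tF x y := by
  unfold y2 x2 hF tF
  ring

theorem slope1 (x y : R) : l1 x y * (2 * y1 x y) = 3 * x1 x y ^ 2 - 27 * hF x y := by
  unfold l1 y1 x1 hF
  ring

theorem slope2 (x y : R) : l2 x y * (2 * y2 x y) = 3 * x2 x y ^ 2 - 27 * hF x y := by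
  unfold l2 y2 x2 hF
  ring

theorem dblx1 (x y : R) : l1 x y ^ 2 - 2 * x1 x y = x2 x y := by
  unfold l1 x2 x1
  ring

theorem dbly1 (x y : R) : l1 x y * (x1 x y - x2 x y) - y1 x y = y2 x y := by
  unfold l1 x2 x1 y1 y2
  ring

theorem dblx2 (x y : R) : l2 x y ^ 2 - 2 * x2 x y = x1 x y := by
  unfold l2 x2 x1
  ring

theorem dbly2 (x y : R) : l2 x y * (x2 x y - x1 x y) - y2 x y = -y1 x y := by
  unfold l2 x2 x1 y1 y2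
  ring

/-- the factorisation of `f` -/
theorem fF_fac (x y : R) : 36 * (fF x y) = (x2 x y - x1 x y) * (x ^ 2 - x * y - y ^ 2) := by
  unfold fF x2 x1
  ring

end Ring

end Fermat.Agent.TF
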