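import Fermat.Agent.TF.Ico

/-!
# The second universal 5-torsion section
-/

set_option autoImplicit false
set_option maxHeartbeats 1000000

namespace Fermat.Agent.TF

section Ring

variable {R : Type*} [CommRing R]

/-- `X(R ∘ g)` -/
def x1g (ζ x y : R) : R :=
  (3)*y^10 + ((-36)*ζ)*x^1*y^9 + (72*ζ^2)*x^2*y^8 + ((-108)*ζ^3)*x^3*y^7 + (180*ζ^4)*x^4*y^6 + ((-90))*x^5*y^5 + (72*ζ)*x^6*y^4 + (36*ζ^2)*x^7*y^3 + (36*ζ^3)*x^8*y^2 + (3)*x^10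

/-- `Y(R ∘ g)` -/
def y1g (ζ x y : R) : R :=
  (108*ζ)*x^1*y^14 + ((-432)*ζ^2)*x^2*y^13 + (972*ζ^3)*x^3*y^12 + ((-1620)*ζ^4)*x^4*y^11 + (2700)*x^5*y^10 + ((-3132)*ζ)*x^6*y^9 + (2268*ζ^2)*x^7*y^8 + ((-648)*ζ^3)*x^8*y^7 + (540*ζ^4)*x^9*y^6 + (432*ζ)*x^11*y^4 + ((-108)*ζ^2)*x^12*y^3 + (108*ζ^3)*x^13*y^2

/-- 5 times the slope -/
def mu5 (ζ x y : R) : R :=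
  (9+18*ζ+12*ζ^2+6*ζ^3)*y^5 + ((-30)+30*ζ)*x^1*y^4 + (30+(-30)*ζ^2)*x^2*y^3 + ((-30)+30*ζ^3)*x^3*y^2 + ((-3)+(-6)*ζ+6*ζ^2+(-12)*ζ^3)*x^5

/-- `5 X(S)` -/
def xs5 (ζ x y : R) : R :=
  ((-57)+36*ζ^2+36*ζ^3)*y^10 + (198+396*ζ^2+396*ζ^3)*x^5*y^5 + ((-93)+(-36)*ζ^2+(-36)*ζ^3)*x^10

/-- `5 Y(S)` -/
def ys5 (ζ x y : R) : R :=
  (216+432*ζ+324*ζ^2+108*ζ^3)*y^15 + (2484+4968*ζ+3456*ζ^2+1512*ζ^3)*x^5*y^10 + (972+1944*ζ+(-1512)*ζ^2+3456*ζ^3)*x^10*y^5 + ((-108)+(-216)*ζ+108*ζ^2+(-324)*ζ^3)*x^15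

/-- 5 times the slope at S -/
def ls5 (ζ x y : R) : R :=
  ((-21)+(-42)*ζ+(-18)*ζ^2+(-24)*ζ^3)*y^5 + ((-3)+(-6)*ζ+(-24)*ζ^2+18*ζ^3)*x^5

/-- `5 X(2S)` -/
def xt5 (ζ x y : R) : R :=
  ((-93)+(-36)*ζ^2+(-36)*ζ^3)*y^10 + ((-198)+(-396)*ζ^2+(-396)*ζ^3)*x^5*y^5 + ((-57)+36*ζ^2+36*ζ^3)*x^10

/-- `5 Y(2S)` -/
def yt5 (ζ x y : R) : R :=
  ((-108)+(-216)*ζ+108*ζ^2+(-324)*ζ^3)*y^15 + ((-972)+(-1944)*ζ+1512*ζ^2+(-3456)*ζ^3)*x^5*y^10 + (2484+4968*ζ+3456*ζ^2+1512*ζ^3)*x^10*y^5 + ((-216)+(-432)*ζ+(-324)*ζ^2+(-108)*ζ^3)*x^15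

theorem z5 {ζ : R} (h : 1 + ζ + ζ ^ 2 + ζ ^ 3 + ζ ^ 4 = 0) : ζ ^ 5 = 1 := by
  linear_combination (ζ - 1) * h

variable {ζ : R} (h : 1 + ζ + ζ ^ 2 + ζ ^ 3 + ζ ^ 4 = 0) (x y : R)
include h

theorem x1_g : x1 (ζ ^ 3 * x) (ζ ^ 2 * y) = x1g ζ x y := by
  unfold x1 x1g
  linear_combination ((3+3*ζ^5+3*ζ^10+3*ζ^15)*y^10 + ((-36)*ζ+(-36)*ζ^6+(-36)*ζ^11+(-36)*ζ^16)*x^1*y^9 + (72*ζ^2+72*ζ^7+72*ζ^12+72*ζ^17)*x^2*y^8 + ((-108)*ζ^3+(-108)*ζ^8+(-108)*ζ^13+(-108)*ζ^18)*x^3*y^7 + (180*ζ^4+180*ζ^9+180*ζ^14+180*ζ^19)*x^4*y^6 + ((-90)+(-90)*ζ^5+(-90)*ζ^10+(-90)*ζ^15+(-90)*ζ^20)*x^5*y^5 + (72*ζ+72*ζ^6+72*ζ^11+72*ζ^16+72*ζ^21)*x^6*y^4 + (36*ζ^2+36*ζ^7+36*ζ^12+36*ζ^17+36*ζ^22)*x^7*y^3 + (36*ζ^3+36*ζ^8+36*ζ^13+36*ζ^18+36*ζ^23)*x^8*y^2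 + (3+3*ζ^5+3*ζ^10+3*ζ^15+3*ζ^20+3*ζ^25)*x^10) * (z5 h)

theorem y1_g : y1 (ζ ^ 3 * x) (ζ ^ 2 * y) = y1g ζ x y := by
  unfold y1 y1g
  linear_combination ((108*ζ+108*ζ^6+108*ζ^11+108*ζ^16+108*ζ^21+108*ζ^26)*x^1*y^14 + ((-432)*ζ^2+(-432)*ζ^7+(-432)*ζ^12+(-432)*ζ^17+(-432)*ζ^22+(-432)*ζ^27)*x^2*y^13 + (972*ζ^3+972*ζ^8+972*ζ^13+972*ζ^18+972*ζ^23+972*ζ^28)*x^3*y^12 + ((-1620)*ζ^4+(-1620)*ζ^9+(-1620)*ζ^14+(-1620)*ζ^19+(-1620)*ζ^24+(-1620)*ζ^29)*x^4*y^11 + (2700+2700*ζ^5+2700*ζ^10+2700*ζ^15+2700*ζ^20+2700*ζ^25+2700*ζ^30)*x^5*y^10 + ((-3132)*ζ+(-3132)*ζ^6+(-3132)*ζ^11+(-3132)*ζ^16+(-3132)*ζ^21+(-3132)*ζ^26+(-3132)*ζ^31)*x^6*y^9 + (2268*ζ^2+2268*ζ^7+2268*ζ^12+2268*ζ^17+2268*ζ^22+2268*ζ^27+2268*ζ^32)*x^7*y^8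 + ((-648)*ζ^3+(-648)*ζ^8+(-648)*ζ^13+(-648)*ζ^18+(-648)*ζ^23+(-648)*ζ^28+(-648)*ζ^33)*x^8*y^7 + (540*ζ^4+540*ζ^9+540*ζ^14+540*ζ^19+540*ζ^24+540*ζ^29+540*ζ^34)*x^9*y^6 + (432*ζ+432*ζ^6+432*ζ^11+432*ζ^16+432*ζ^21+432*ζ^26+432*ζ^31+432*ζ^36)*x^11*y^4 + ((-108)*ζ^2+(-108)*ζ^7+(-108)*ζ^12+(-108)*ζ^17+(-108)*ζ^22+(-108)*ζ^27+(-108)*ζ^32+(-108)*ζ^37)*x^12*y^3 + (108*ζ^3+108*ζ^8+108*ζ^13+108*ζ^18+108*ζ^23+108*ζ^28+108*ζ^33+108*ζ^38)*x^13*y^2) * (z5 h)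

theorem fF_g : fF (ζ ^ 3 * x) (ζ ^ 2 * y) = fF x y := by
  unfold fF
  linear_combination (((-1)+(-1)*ζ^5+(-1)*ζ^10+(-1)*ζ^15+(-1)*ζ^20)*x^1*y^11 + ((-11)+(-11)*ζ^5+(-11)*ζ^10+(-11)*ζ^15+(-11)*ζ^20+(-11)*ζ^25)*x^6*y^6 + (1+1*ζ^5+1*ζ^10+1*ζ^15+1*ζ^20+1*ζ^25+1*ζ^30)*x^11*y^1) * (z5 h)

theorem hF_g : hF (ζ ^ 3 * x) (ζ ^ 2 * y) = hF x y := by
  unfold hF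
  linear_combination ((1+1*ζ^5+1*ζ^10+1*ζ^15+1*ζ^20+1*ζ^25+1*ζ^30+1*ζ^35)*y^20 + ((-228)+(-228)*ζ^5+(-228)*ζ^10+(-228)*ζ^15+(-228)*ζ^20+(-228)*ζ^25+(-228)*ζ^30+(-228)*ζ^35+(-228)*ζ^40)*x^5*y^15 + (494+494*ζ^5+494*ζ^10+494*ζ^15+494*ζ^20+494*ζ^25+494*ζ^30+494*ζ^35+494*ζ^40+494*ζ^45)*x^10*y^10 + (228+228*ζ^5+228*ζ^10+228*ζ^15+228*ζ^20+228*ζ^25+228*ζ^30+228*ζ^35+228*ζ^40+228*ζ^45+228*ζ^50)*x^15*y^5 + (1+1*ζ^5+1*ζ^10+1*ζ^15+1*ζ^20+1*ζ^25+1*ζ^30+1*ζ^35+1*ζ^40+1*ζ^45+1*ζ^50+1*ζ^55)*x^20) * (z5 h)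

theorem tF_g : tF (ζ ^ 3 * x) (ζ ^ 2 * y) = tF x y := by
  unfold tF
  linear_combination (((-1)+(-1)*ζ^5+(-1)*ζ^10+(-1)*ζ^15+(-1)*ζ^20+(-1)*ζ^25+(-1)*ζ^30+(-1)*ζ^35+(-1)*ζ^40+(-1)*ζ^45+(-1)*ζ^50+(-1)*ζ^55)*y^30 + ((-522)+(-522)*ζ^5+(-522)*ζ^10+(-522)*ζ^15+(-522)*ζ^20+(-522)*ζ^25+(-522)*ζ^30+(-522)*ζ^35+(-522)*ζ^40+(-522)*ζ^45+(-522)*ζ^50+(-522)*ζ^55+(-522)*ζ^60)*x^5*y^25 + (10005+10005*ζ^5+10005*ζ^10+10005*ζ^15+10005*ζ^20+10005*ζ^25+10005*ζ^30+10005*ζ^35+10005*ζ^40+10005*ζ^45+10005*ζ^50+10005*ζ^55+10005*ζ^60+10005*ζ^65)*x^10*y^20 + (10005+10005*ζ^5+10005*ζ^10+10005*ζ^15+10005*ζ^20+10005*ζ^25+10005*ζ^30+10005*ζ^35+10005*ζ^40+10005*ζ^45+10005*ζ^50+10005*ζ^55+10005*ζ^60+10005*ζ^65+10005*ζ^70+10005*ζ^75)*x^20*y^10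 + (522+522*ζ^5+522*ζ^10+522*ζ^15+522*ζ^20+522*ζ^25+522*ζ^30+522*ζ^35+522*ζ^40+522*ζ^45+522*ζ^50+522*ζ^55+522*ζ^60+522*ζ^65+522*ζ^70+522*ζ^75+522*ζ^80)*x^25*y^5 + ((-1)+(-1)*ζ^5+(-1)*ζ^10+(-1)*ζ^15+(-1)*ζ^20+(-1)*ζ^25+(-1)*ζ^30+(-1)*ζ^35+(-1)*ζ^40+(-1)*ζ^45+(-1)*ζ^50+(-1)*ζ^55+(-1)*ζ^60+(-1)*ζ^65+(-1)*ζ^70+(-1)*ζ^75+(-1)*ζ^80+(-1)*ζ^85)*x^30) * (z5 h)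

theorem fy_g : fy (ζ ^ 3 * x) (ζ ^ 2 * y) = ζ ^ 3 * fy x y := by
  unfold fy
  linear_combination (((-11)*ζ^3+(-11)*ζ^8+(-11)*ζ^13+(-11)*ζ^18)*x^1*y^10 + ((-66)*ζ^3+(-66)*ζ^8+(-66)*ζ^13+(-66)*ζ^18+(-66)*ζ^23)*x^6*y^5 + (1*ζ^3+1*ζ^8+1*ζ^13+1*ζ^18+1*ζ^23+1*ζ^28)*x^11) * (z5 h)

theorem fx_g : fx (ζ ^ 3 * x) (ζ ^ 2 * y) = ζ ^ 2 * fx x y := by
  unfold fx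
  linear_combination (((-1)*ζ^2+(-1)*ζ^7+(-1)*ζ^12+(-1)*ζ^17)*y^11 + ((-66)*ζ^2+(-66)*ζ^7+(-66)*ζ^12+(-66)*ζ^17+(-66)*ζ^22)*x^5*y^6 + (11*ζ^2+11*ζ^7+11*ζ^12+11*ζ^17+11*ζ^22+11*ζ^27)*x^10*y^1) * (z5 h)

theorem mu_eq : mu5 ζ x y * (x1g ζ x y - x1 x y) = 5 * (y1g ζ x y + y1 x y) := by
  unfold mu5 x1g x1 y1g y1
  linear_combination (((-216))*x^1*y^14 + (432+432*ζ)*x^2*y^13 + ((-648)+(-648)*ζ+(-648)*ζ^2)*x^3*y^12 + (1080*ζ+1080*ζ^2+1080*ζ^3)*x^4*y^11 + ((-16200)+10800*ζ)*x^5*y^10 + (6264+8640*ζ+(-8640)*ζ^2)*x^6*y^9 + ((-3888)+(-648)*ζ+(-5400)*ζ^2+5400*ζ^3)*x^7*y^8 + (1512+(-1728)*ζ+1512*ζ^2)*x^8*y^7 + ((-2160)*ζ+3240*ζ^2+(-2160)*ζ^3)*x^9*y^6 + ((-864)+(-1080)*ζ+1080*ζ^2)*x^11*y^4 + (648+(-432)*ζ)*x^12*y^3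 + ((-432)+648*ζ+(-432)*ζ^2)*x^13*y^2) * h

theorem xs_eq : mu5 ζ x y ^ 2 - 25 * x1 x y - 25 * x1g ζ x y = 5 * xs5 ζ x y := by
  unfold mu5 x1g x1 xs5
  linear_combination ((216+108*ζ+36*ζ^2)*y^10 + (360)*x^1*y^9 + ((-360)+(-360)*ζ)*x^2*y^8 + (360+360*ζ+360*ζ^2)*x^3*y^7 + ((-1800))*x^4*y^6 + (1656+(-1872)*ζ+(-144)*ζ^2)*x^5*y^5 + ((-720)+(-900)*ζ+900*ζ^2)*x^6*y^4 + ((-1080)+720*ζ)*x^7*y^3 + ((-720)+1080*ζ+(-720)*ζ^2)*x^8*y^2 + (324+(-288)*ζ+144*ζ^2)*x^10) * h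

theorem ys_eq : mu5 ζ x y * (5 * x1 x y - xs5 ζ x y) + 25 * y1 x y = 5 * ys5 ζ x y := by
  unfold mu5 x1 xs5 y1 ys5
  linear_combination (((-432)+(-432)*ζ+(-216)*ζ^2)*y^15 + ((-1080))*x^1*y^14 + (1080*ζ)*x^2*y^13 + (1080+(-1080)*ζ^2)*x^3*y^12 + ((-4968)+(-4968)*ζ+(-1944)*ζ^2)*x^5*y^10 + ((-11880))*x^6*y^9 + (11880*ζ)*x^7*y^8 + (11880+(-11880)*ζ^2)*x^8*y^7 + ((-1944)+(-1944)*ζ+4968*ζ^2)*x^10*y^5 + (1080)*x^11*y^4 + ((-1080)*ζ)*x^12*y^3 + ((-1080)+1080*ζ^2)*x^13*y^2 + (216+216*ζ+(-432)*ζ^2)*x^15) * h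

theorem ls_eq : ls5 ζ x y * (2 * ys5 ζ x y) = 3 * xs5 ζ x y ^ 2 - 675 * hF x y := by
  unfold ls5 ys5 xs5 hF
  linear_combination (((-18144)+(-18144)*ζ+(-9072)*ζ^2)*y^20 + ((-191808)+(-230688)*ζ+(-154224)*ζ^2)*x^5*y^15 + (128304+(-351216)*ζ+(-574128)*ζ^2)*x^10*y^10 + (263088+(-268272)*ζ+225504*ζ^2)*x^15*y^5 + ((-24624)+27216*ζ+(-15552)*ζ^2)*x^20) * h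

theorem xt_eq : ls5 ζ x y ^ 2 - 10 * xs5 ζ x y = 5 * xt5 ζ x y := by
  unfold ls5 xs5 xt5
  linear_combination ((1476+288*ζ+576*ζ^2)*y^10 + ((-864)+1368*ζ+(-864)*ζ^2)*x^5*y^5 + (1224+(-1188)*ζ+324*ζ^2)*x^10) * h

theorem yt_eq : ls5 ζ x y * (xs5 ζ x y - xt5 ζ x y) - 5 * ys5 ζ x y = 5 * yt5 ζ x y := by
  unfold ls5 xs5 xt5 ys5 yt5
  linear_combination (((-1296)+(-1296)*ζ+(-1728)*ζ^2)*y^15 + ((-15984)+(-15984)*ζ+(-17712)*ζ^2)*x^5*y^10 + ((-17712)+(-17712)*ζ+15984*ζ^2)*x^10*y^5 + (1728+1728*ζ+(-1296)*ζ^2)*x^15) * h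

theorem s_crv : 5 * ys5 ζ x y ^ 2 = xs5 ζ x y ^ 3 - 675 * hF x y * xs5 ζ x y - 6750 * tF x y := by
  unfold ys5 xs5 hF tF
  linear_combination ((373248+559872*ζ+373248*ζ^2+(-93312)*ζ^4+(-46656)*ζ^5)*y^30 + (8817984+12643776*ζ+8817984*ζ^2+(-3079296)*ζ^4+(-1539648)*ζ^5)*x^5*y^25 + (58553280+73249920*ζ+58553280*ζ^2+(-33592320)*ζ^4+(-16796160)*ζ^5)*x^10*y^20 + (81414720+14230080*ζ+81414720*ζ^2+(-118039680)*ζ^4+(-59019840)*ζ^5)*x^15*y^15 + (81414720+(-73249920)*ζ+81414720*ζ^2+33592320*ζ^4+16796160*ζ^5)*x^20*y^10 + ((-16842816)+12643776*ζ+(-16842816)*ζ^2+(-3079296)*ζ^4+(-1539648)*ζ^5)*x^25*y^5 + (793152+(-559872)*ζ+793152*ζ^2+93312*ζ^4+46656*ζ^5)*x^30) * h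

theorem xs_g : xs5 ζ (ζ ^ 3 * x) (ζ ^ 2 * y) = xs5 ζ x y := by
  unfold xs5
  linear_combination (((-57)+36*ζ^2+36*ζ^3+(-57)*ζ^5+36*ζ^7+36*ζ^8+(-57)*ζ^10+36*ζ^12+36*ζ^13+(-57)*ζ^15+36*ζ^17+36*ζ^18)*y^10 + (198+396*ζ^2+396*ζ^3+198*ζ^5+396*ζ^7+396*ζ^8+198*ζ^10+396*ζ^12+396*ζ^13+198*ζ^15+396*ζ^17+396*ζ^18+198*ζ^20+396*ζ^22+396*ζ^23)*x^5*y^5 + ((-93)+(-36)*ζ^2+(-36)*ζ^3+(-93)*ζ^5+(-36)*ζ^7+(-36)*ζ^8+(-93)*ζ^10+(-36)*ζ^12+(-36)*ζ^13+(-93)*ζ^15+(-36)*ζ^17+(-36)*ζ^18+(-93)*ζ^20+(-36)*ζ^22+(-36)*ζ^23+(-93)*ζ^25+(-36)*ζ^27+(-36)*ζ^28)*x^10) * (z5 h)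

theorem ys_g : ys5 ζ (ζ ^ 3 * x) (ζ ^ 2 * y) = ys5 ζ x y := by
  unfold ys5
  linear_combination ((216+432*ζ+324*ζ^2+108*ζ^3+216*ζ^5+432*ζ^6+324*ζ^7+108*ζ^8+216*ζ^10+432*ζ^11+324*ζ^12+108*ζ^13+216*ζ^15+432*ζ^16+324*ζ^17+108*ζ^18+216*ζ^20+432*ζ^21+324*ζ^22+108*ζ^23+216*ζ^25+432*ζ^26+324*ζ^27+108*ζ^28)*y^15 + (2484+4968*ζ+3456*ζ^2+1512*ζ^3+2484*ζ^5+4968*ζ^6+3456*ζ^7+1512*ζ^8+2484*ζ^10+4968*ζ^11+3456*ζ^12+1512*ζ^13+2484*ζ^15+4968*ζ^16+3456*ζ^17+1512*ζ^18+2484*ζ^20+4968*ζ^21+3456*ζ^22+1512*ζ^23+2484*ζ^25+4968*ζ^26+3456*ζ^27+1512*ζ^28+2484*ζ^30+4968*ζ^31+3456*ζ^32+1512*ζ^33)*x^5*y^10 + (972+1944*ζ+(-1512)*ζ^2+3456*ζ^3+972*ζ^5+1944*ζ^6+(-1512)*ζ^7+3456*ζ^8+972*ζ^10+1944*ζ^11+(-1512)*ζ^12+3456*ζ^13+972*ζ^15+1944*ζ^16+(-1512)*ζ^17+3456*ζ^18+972*ζ^20+1944*ζ^21+(-1512)*ζ^22+3456*ζ^23+972*ζ^25+1944*ζ^26+(-1512)*ζ^27+3456*ζ^28+972*ζ^30+1944*ζ^31+(-1512)*ζ^32+3456*ζ^33+972*ζ^35+1944*ζ^36+(-1512)*ζ^37+3456*ζ^38)*x^10*y^5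 + ((-108)+(-216)*ζ+108*ζ^2+(-324)*ζ^3+(-108)*ζ^5+(-216)*ζ^6+108*ζ^7+(-324)*ζ^8+(-108)*ζ^10+(-216)*ζ^11+108*ζ^12+(-324)*ζ^13+(-108)*ζ^15+(-216)*ζ^16+108*ζ^17+(-324)*ζ^18+(-108)*ζ^20+(-216)*ζ^21+108*ζ^22+(-324)*ζ^23+(-108)*ζ^25+(-216)*ζ^26+108*ζ^27+(-324)*ζ^28+(-108)*ζ^30+(-216)*ζ^31+108*ζ^32+(-324)*ζ^33+(-108)*ζ^35+(-216)*ζ^36+108*ζ^37+(-324)*ζ^38+(-108)*ζ^40+(-216)*ζ^41+108*ζ^42+(-324)*ζ^43)*x^15) * (z5 h)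

omit h in
/-- cofactor -/
def qd (ζ x y : R) : R :=
  (4+3*ζ+2*ζ^2+1*ζ^3)*x^1*y^13 + (6+12*ζ+8*ζ^2+4*ζ^3)*x^2*y^12 + ((-2)+16*ζ+14*ζ^2+7*ζ^3)*x^3*y^11 + ((-7)+6*ζ+19*ζ^2+12*ζ^3)*x^4*y^10 + ((-20)+(-15)*ζ+15*ζ^2+20*ζ^3)*x^5*y^9 + (4+(-22)*ζ+2*ζ^2+26*ζ^3)*x^6*y^8 + (11+22*ζ+(-2)*ζ^2+24*ζ^3)*x^7*y^7 + ((-57)+31*ζ+(-26)*ζ^2+(-13)*ζ^3)*x^8*y^6 + ((-22)+(-24)*ζ+(-26)*ζ^2+(-48)*ζ^3)*x^9*y^5 + (15+(-20)*ζ+20*ζ^2+(-15)*ζ^3)*x^10*y^4 + (26+7*ζ+13*ζ^2+19*ζ^3)*x^11*y^3 + (4+8*ζ+(-3)*ζ^2+11*ζ^3)*x^12*y^2 + ((-3)+(-1)*ζ+(-4)*ζ^2+(-2)*ζ^3)*x^13*y^1 + ((-3)+(-1)*ζ+1*ζ^2+(-2)*ζ^3)*x^14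

theorem x1g_sub : (x1g ζ x y - x1 x y) * qd ζ x y = 180 * fF x y ^ 2 := by
  unfold x1g x1 qd fF
  linear_combination (((-36))*x^2*y^22 + ((-72)+72*ζ)*x^3*y^21 + ((-72)+180*ζ+(-108)*ζ^2)*x^4*y^20 + ((-180)+252*ζ+(-252)*ζ^2+180*ζ^3)*x^5*y^19 + ((-1512)+828*ζ+(-36)*ζ^2+720*ζ^3)*x^6*y^18 + ((-3060)+1044*ζ+(-36)*ζ^2+1260*ζ^3)*x^7*y^17 + ((-1368)+108*ζ+(-900)*ζ^2+2160*ζ^3)*x^8*y^16 + (972+(-900)*ζ+(-3672)*ζ^2+3600*ζ^3)*x^9*y^15 + (4140+(-2052)*ζ+(-6768)*ζ^2+4680*ζ^3)*x^10*y^14 + ((-4248)+2952*ζ+(-3024)*ζ^2+4320*ζ^3)*x^11*y^13 + ((-12996)+7776*ζ+3276*ζ^2+(-2340)*ζ^3)*x^12*y^12 + (3636+(-1296)*ζ+6300*ζ^2+(-8640)*ζ^3)*x^13*y^11 + (3276+(-5760)*ζ+5184*ζ^2+(-2700)*ζ^3)*x^14*y^10 + ((-900)+(-1116)*ζ+(-1404)*ζ^2+3420*ζ^3)*x^15*y^9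 + (936+(-144)*ζ+(-2772)*ζ^2+1980*ζ^3)*x^16*y^8 + (2556+468*ζ+(-1872)*ζ^2+(-360)*ζ^3)*x^17*y^7 + ((-1224)+1584*ζ+(-360)*ζ^3)*x^18*y^6 + ((-864)+180*ζ+684*ζ^2)*x^19*y^5 + (180+(-576)*ζ+396*ζ^2)*x^20*y^4 + (216+(-144)*ζ+(-72)*ζ^2)*x^21*y^3 + ((-72)+108*ζ+(-72)*ζ^2)*x^22*y^2) * h

end Ring

end Fermat.Agent.TF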