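import Fermat.Agent.TF.Psi
import Fermat.Agent.SW.Away

/-!
# The members of the family have the same 5-torsion
-/

set_option autoImplicit false
set_option linter.unusedSectionVars false
set_option linter.unusedVariables false

noncomputable section

namespace Fermat.Agent.TF

open WeierstrassCurve WeierstrassCurve.Affine Polynomial Fermat.Agent.EC

/-- The field of algebraic numbers. -/
local notation "Kb" => AlgebraicClosure ℚ
/-- The absolute Galois group. -/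
local notation "GQ" => (AlgebraicClosure ℚ ≃ₐ[ℚ] AlgebraicClosure ℚ)

section forms

variable {R S : Type*} [CommRing R] [CommRing S]

theorem map_wx (φ : R →+* S) (x y l m : R) :
    φ (SW.wx x y l m) = SW.wx (φ x) (φ y) (φ l) (φ m) := by
  simp only [SW.wx, map_add, map_sub, map_mul, map_pow, map_ofNat]

theorem map_wy (φ : R →+* S) (x y l m : R) :
    φ (SW.wy x y l m) = SW.wy (φ x) (φ y) (φ l) (φ m) := by
  simp only [SW.wy, map_add, map_sub, map_mul, map_pow, map_ofNat]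

theorem hF_w (x y m : R) : hF (SW.wx x (-y) 1 m) (-SW.wy x (-y) 1 m) =
    SW.p4 (hF x y) (tF x y) 1 m := by
  have h1 := SW.c4F_w x (-y) 1 m
  rw [SW.c4F_eq_hF, SW.c4F_eq_hF, SW.c6F_eq_tF, neg_neg] at h1
  exact h1

theorem tF_w (x y m : R) : tF (SW.wx x (-y) 1 m) (-SW.wy x (-y) 1 m) =
    SW.p6 (hF x y) (tF x y) 1 m := by
  have h1 := SW.c6F_w x (-y) 1 m
  rw [SW.c6F_eq_tF, SW.c4F_eq_hF, SW.c6F_eq_tF, neg_neg] at h1
  exact h1

theorem hF_neg (x y : R) : hF (-x) (-y) = hF x y := by unfold hF; ring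

end forms

section fam

variable {K : Type*} [Field K] [DecidableEq K] [CharZero K]

/-- The first coordinate of the family. -/
def pp (x y : K) : K[X] := SW.wx (C x) (C (-y)) 1 X

/-- The second coordinate of the family. -/
def qq (x y : K) : K[X] := -SW.wy (C x) (C (-y)) 1 X

theorem hF_pq (x y : K) : hF (pp x y) (qq x y) = SW.p4 (C (hF x y)) (C (tF x y)) 1 X := by
  have h1 := hF_w (C x) (C y) X
  rw [← map_hF C, ← map_tF C] at h1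
  rw [pp, qq, C_neg]
  exact h1

theorem tF_pq (x y : K) : tF (pp x y) (qq x y) = SW.p6 (C (hF x y)) (C (tF x y)) 1 X := by
  have h1 := tF_w (C x) (C y) X
  rw [← map_hF C, ← map_tF C] at h1
  rw [pp, qq, C_neg]
  exact h1

theorem eval_pp (x y m : K) : (pp x y).eval m = SW.wx x (-y) 1 m := by
  have h1 := map_wx (evalRingHom m) (C x) (C (-y)) 1 X
  rw [coe_evalRingHom, eval_C, eval_C, eval_one, eval_X] at h1
  exact h1

theorem eval_qq (x y m : K) : (qq x y).eval m = -SW.wy x (-y) 1 m := by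
  have h1 := map_wy (evalRingHom m) (C x) (C (-y)) 1 X
  rw [coe_evalRingHom, eval_C, eval_C, eval_one, eval_X] at h1
  rw [qq, eval_neg, h1]

theorem eval_p4 (c d m : K) : (SW.p4 (C c) (C d) 1 X : K[X]).eval m = SW.p4 c d 1 m := by
  have h1 := SW.map_p4 (evalRingHom m) (C c) (C d) 1 X
  rw [coe_evalRingHom, eval_C, eval_C, eval_one, eval_X] at h1
  exact h1

theorem eval_p6 (c d m : K) : (SW.p6 (C c) (C d) 1 X : K[X]).eval m = SW.p6 c d 1 m := by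
  have h1 := SW.map_p6 (evalRingHom m) (C c) (C d) 1 X
  rw [coe_evalRingHom, eval_C, eval_C, eval_one, eval_X] at h1
  exact h1

/-- the coordinate of the point of parameter `m` -/
def X' (x y m : K) : K := SW.wx x (-y) 1 m

/-- the coordinate of the point of parameter `m` -/
def Y' (x y m : K) : K := -SW.wy x (-y) 1 m

theorem qq_smul (x y ζ : K) : ∀ m, (C (ζ ^ 3) * pp x y).eval m = ζ ^ 3 * X' x y m ∧
    (C (ζ ^ 2) * qq x y).eval m = ζ ^ 2 * Y' x y m := by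
  intro m
  rw [eval_mul, eval_mul, eval_C, eval_C, eval_pp, eval_qq]
  exact ⟨rfl, rfl⟩

/-- rigidity for the family -/
theorem rigid_fam [IsAlgClosed K] {c d x y x' y' : K} (hc : hF x y = c) (hd : tF x y = d)
    (hc' : hF x' y' = c) (hd' : tF x' y' = d) (h : c ^ 3 ≠ d ^ 2)
    {ζ ζ' : K} (hζ : 1 + ζ + ζ ^ 2 + ζ ^ 3 + ζ ^ 4 = 0)
    (hζ' : 1 + ζ' + ζ' ^ 2 + ζ' ^ 3 + ζ' ^ 4 = 0) :
    ∃ u w : Fin 5 × Fin 5, ∀ m : K, SW.p4 c d 1 m ^ 3 ≠ SW.p6 c d 1 m ^ 2 →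
      RR (SW.p4 c d 1 m) (SW.p6 c d 1 m) (X' x' y' m) (Y' x' y' m) =
        (u.1 : ℕ) • RR (SW.p4 c d 1 m) (SW.p6 c d 1 m) (X' x y m) (Y' x y m) +
        (u.2 : ℕ) • SS ζ (SW.p4 c d 1 m) (SW.p6 c d 1 m) (X' x y m) (Y' x y m) ∧
      RR (SW.p4 c d 1 m) (SW.p6 c d 1 m) (ζ' ^ 3 * X' x' y' m) (ζ' ^ 2 * Y' x' y' m) =
        (w.1 : ℕ) • RR (SW.p4 c d 1 m) (SW.p6 c d 1 m) (X' x y m) (Y' x y m) +
        (w.2 : ℕ) • SS ζ (SW.p4 c d 1 m) (SW.p6 c d 1 m) (X' x y m) (Y' x y m) := by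
  have h1 : hF (pp x y) (qq x y) = SW.p4 (C c) (C d) 1 X := by rw [hF_pq, hc, hd]
  have h2 : tF (pp x y) (qq x y) = SW.p6 (C c) (C d) 1 X := by rw [tF_pq, hc, hd]
  have h1' : hF (pp x' y') (qq x' y') = SW.p4 (C c) (C d) 1 X := by rw [hF_pq, hc', hd']
  have h2' : tF (pp x' y') (qq x' y') = SW.p6 (C c) (C d) 1 X := by rw [tF_pq, hc', hd']
  have hζC : (1 : K[X]) + C ζ' + C ζ' ^ 2 + C ζ' ^ 3 + C ζ' ^ 4 = 0 := by
    rw [← C_1, ← C_pow, ← C_pow, ← C_pow, ← C_add, ← C_add, ← C_add, ← C_add, hζ', C_0]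
  have h1'' : hF (C (ζ' ^ 3) * pp x' y') (C (ζ' ^ 2) * qq x' y') = SW.p4 (C c) (C d) 1 X := by
    rw [C_pow, C_pow, hF_g hζC, h1']
  have h2'' : tF (C (ζ' ^ 3) * pp x' y') (C (ζ' ^ 2) * qq x' y') = SW.p6 (C c) (C d) 1 X := by
    rw [C_pow, C_pow, tF_g hζC, h2']
  have hcd : (SW.p4 (C c) (C d) 1 X : K[X]) ^ 3 ≠ SW.p6 (C c) (C d) 1 X ^ 2 := by
    intro h0
    have h3 := congrArg (eval 0) h0
    rw [eval_pow, eval_pow, eval_p4, eval_p6, SW.p4_one_zero, SW.p6_one_zero] at h3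
    exact h h3
  obtain ⟨u, hu⟩ := rigid h1 h2 hζ hcd h1' h2'
  obtain ⟨w, hw⟩ := rigid h1 h2 hζ hcd h1'' h2''
  refine ⟨u, w, fun m hm => ?_⟩
  have hm' : (SW.p4 (C c) (C d) 1 X : K[X]).eval m ^ 3 ≠
      (SW.p6 (C c) (C d) 1 X : K[X]).eval m ^ 2 := by rwa [eval_p4, eval_p6]
  have e1 := hu m hm'
  have e2 := hw m hm'
  rw [(qq_smul x' y' ζ' m).1, (qq_smul x' y' ζ' m).2] at e2
  rw [eval_p4, eval_p6, eval_pp, eval_qq, eval_pp, eval_qq] at e1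
  rw [eval_p4, eval_p6, eval_pp, eval_qq] at e2
  exact ⟨e1, e2⟩

end fam

section galois

variable {c d : ℤ} {x y : Kb} (hc : hF x y = (c : Kb)) (hd : tF x y = (d : Kb))
  (h : (c : Kb) ^ 3 ≠ (d : Kb) ^ 2) {ζ : Kb} (hζ : 1 + ζ + ζ ^ 2 + ζ ^ 3 + ζ ^ 4 = 0)

theorem cast_p4 (c d m : ℤ) : ((SW.p4 c d 1 m : ℤ) : Kb) = SW.p4 (c : Kb) (d : Kb) 1 (m : Kb) := by
  have h1 := SW.map_p4 (Int.castRingHom Kb) c d 1 m
  rw [map_one] at h1
  exact h1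

theorem cast_p6 (c d m : ℤ) : ((SW.p6 c d 1 m : ℤ) : Kb) = SW.p6 (c : Kb) (d : Kb) 1 (m : Kb) := by
  have h1 := SW.map_p6 (Int.castRingHom Kb) c d 1 m
  rw [map_one] at h1
  exact h1

theorem gal_X (σ : GQ) (x y : Kb) (m : ℤ) : σ (X' x y m) = X' (σ x) (σ y) m := by
  have h1 := map_wx (σ : Kb →+* Kb) x (-y) 1 (m : Kb)
  rw [X', X']
  refine h1.trans ?_
  simp only [map_neg, map_one, map_intCast]
  rfl

theorem gal_Y (σ : GQ) (x y : Kb) (m : ℤ) : σ (Y' x y m) = Y' (σ x) (σ y) m := by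
  have h1 := map_wy (σ : Kb →+* Kb) x (-y) 1 (m : Kb)
  rw [Y', Y', map_neg, neg_inj]
  refine h1.trans ?_
  simp only [map_neg, map_one, map_intCast]
  rfl

include hc hd in
theorem hF_XY (m : ℤ) : hF (X' x y m) (Y' x y m) = ((SW.p4 c d 1 m : ℤ) : Kb) ∧
    tF (X' x y m) (Y' x y m) = ((SW.p6 c d 1 m : ℤ) : Kb) := by
  rw [cast_p4, cast_p6, X', Y', hF_w, tF_w, hc, hd]
  exact ⟨rfl, rfl⟩

include hc hd h hζ in
theorem gal_RS (σ : GQ) : ∃ a b a' b' : ℤ, ∀ m : ℤ,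
    ((SW.p4 c d 1 m : ℤ) : Kb) ^ 3 ≠ ((SW.p6 c d 1 m : ℤ) : Kb) ^ 2 →
    mk ((SW.p4 c d 1 m : ℤ) : Kb) ((SW.p6 c d 1 m : ℤ) : Kb) (σ (x1 (X' x y m) (Y' x y m)))
      (σ (y1 (X' x y m) (Y' x y m))) =
      a • RR ((SW.p4 c d 1 m : ℤ) : Kb) ((SW.p6 c d 1 m : ℤ) : Kb) (X' x y m) (Y' x y m) +
      b • SS ζ ((SW.p4 c d 1 m : ℤ) : Kb) ((SW.p6 c d 1 m : ℤ) : Kb) (X' x y m) (Y' x y m) ∧
    mk ((SW.p4 c d 1 m : ℤ) : Kb) ((SW.p6 c d 1 m : ℤ) : Kb)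
      (σ (xs5 ζ (X' x y m) (Y' x y m) / 5)) (σ (ys5 ζ (X' x y m) (Y' x y m) / 5)) =
      a' • RR ((SW.p4 c d 1 m : ℤ) : Kb) ((SW.p6 c d 1 m : ℤ) : Kb) (X' x y m) (Y' x y m) +
      b' • SS ζ ((SW.p4 c d 1 m : ℤ) : Kb) ((SW.p6 c d 1 m : ℤ) : Kb) (X' x y m) (Y' x y m) := by
  have hc' : hF (σ x) (σ y) = (c : Kb) := by
    have h1 := map_hF (σ : Kb →+* Kb) x y
    rw [hc, map_intCast] at h1
    exact h1.symm
  have hd' : tF (σ x) (σ y) = (d : Kb) := by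
    have h1 := map_tF (σ : Kb →+* Kb) x y
    rw [hd, map_intCast] at h1
    exact h1.symm
  have hζ' : 1 + σ ζ + σ ζ ^ 2 + σ ζ ^ 3 + σ ζ ^ 4 = 0 := by
    have h1 := congrArg σ hζ
    simp only [map_add, map_pow, map_one, map_zero] at h1
    exact h1
  obtain ⟨u, w, huw⟩ := rigid_fam hc hd hc' hd' h hζ hζ'
  refine ⟨(u.1 : ℕ), (u.2 : ℕ), (w.1 : ℕ) - (u.1 : ℕ), (w.2 : ℕ) - (u.2 : ℕ), fun m hm => ?_⟩
  rw [cast_p4, cast_p6] at hm ⊢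
  obtain ⟨e1, e2⟩ := huw m hm
  obtain ⟨h1, h2⟩ := hF_XY hc' hd' m
  rw [cast_p4] at h1
  rw [cast_p6] at h2
  have g1 : σ (x1 (X' x y m) (Y' x y m)) = x1 (X' (σ x) (σ y) m) (Y' (σ x) (σ y) m) := by
    rw [← gal_X, ← gal_Y]
    exact map_x1 (σ : Kb →+* Kb) _ _
  have g2 : σ (y1 (X' x y m) (Y' x y m)) = y1 (X' (σ x) (σ y) m) (Y' (σ x) (σ y) m) := by
    rw [← gal_X, ← gal_Y]
    exact map_y1 (σ : Kb →+* Kb) _ _
  have g3 : σ (xs5 ζ (X' x y m) (Y' x y m) / 5) =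
      xs5 (σ ζ) (X' (σ x) (σ y) m) (Y' (σ x) (σ y) m) / 5 := by
    rw [← gal_X, ← gal_Y, map_div₀, map_ofNat]
    congr 1
    exact map_xs5 (σ : Kb →+* Kb) _ _ _
  have g4 : σ (ys5 ζ (X' x y m) (Y' x y m) / 5) =
      ys5 (σ ζ) (X' (σ x) (σ y) m) (Y' (σ x) (σ y) m) / 5 := by
    rw [← gal_X, ← gal_Y, map_div₀, map_ofNat]
    congr 1
    exact map_ys5 (σ : Kb →+* Kb) _ _ _
  rw [g1, g2, g3, g4]
  constructor
  · rw [natCast_zsmul, natCast_zsmul]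
    exact e1
  · have e3 := RR_g h1 h2 hm hζ'
    rw [e2] at e3
    rw [sub_smul, sub_smul, natCast_zsmul, natCast_zsmul, natCast_zsmul, natCast_zsmul]
    have e4 : SS (σ ζ) (SW.p4 (c : Kb) (d : Kb) 1 (m : Kb)) (SW.p6 (c : Kb) (d : Kb) 1 (m : Kb))
        (X' (σ x) (σ y) m) (Y' (σ x) (σ y) m) = _ := (sub_eq_of_eq_add' e3).symm
    change SS (σ ζ) _ _ _ _ = _
    rw [e4, e1]
    abel

end galois

end Fermat.Agent.TF
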