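import Fermat.Agent.TF.Fam
import Fermat.Agent.EC.VarChange
import Fermat.Agent.EFrob.Galois

/-!
# The short model over `ℚ̄`
-/

set_option autoImplicit false
set_option linter.unusedSectionVars false
set_option linter.unusedVariables false

noncomputable section

namespace Fermat.Agent.TF

open WeierstrassCurve WeierstrassCurve.Affine Fermat.Agent.EC

/-- The field of algebraic numbers. -/
local notation "Kb" => AlgebraicClosure ℚ
/-- The absolute Galois group. -/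
local notation "GQ" => (AlgebraicClosure ℚ ≃ₐ[ℚ] AlgebraicClosure ℚ)

variable (W : WeierstrassCurve ℤ)

/-- The change of variables to the short model. -/
def vc : VariableChange Kb where
  u := Units.mk0 (1 / 6) (by norm_num)
  r := -(W.b₂ : Kb) / 12
  s := -(W.a₁ : Kb) / 2
  t := -(W.a₃ : Kb) / 2 + (W.a₁ : Kb) * (W.b₂ : Kb) / 24

theorem vc_smul : vc W • ((W.map (Int.castRingHom ℚ))⁄Kb) = EE (W.c₄ : Kb) (W.c₆ : Kb) := by
  have e1 : ((W.map (Int.castRingHom ℚ))⁄Kb).a₁ = (W.a₁ : Kb) := by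
    simp [WeierstrassCurve.baseChange]
  have e2 : ((W.map (Int.castRingHom ℚ))⁄Kb).a₂ = (W.a₂ : Kb) := by
    simp [WeierstrassCurve.baseChange]
  have e3 : ((W.map (Int.castRingHom ℚ))⁄Kb).a₃ = (W.a₃ : Kb) := by
    simp [WeierstrassCurve.baseChange]
  have e4 : ((W.map (Int.castRingHom ℚ))⁄Kb).a₄ = (W.a₄ : Kb) := by
    simp [WeierstrassCurve.baseChange]
  have e6 : ((W.map (Int.castRingHom ℚ))⁄Kb).a₆ = (W.a₆ : Kb) := by
    simp [WeierstrassCurve.baseChange]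
  have hb2 : (W.b₂ : Kb) = (W.a₁ : Kb) ^ 2 + 4 * W.a₂ := by
    rw [WeierstrassCurve.b₂]; push_cast; ring
  have hc4 : (W.c₄ : Kb) = ((W.a₁ : Kb) ^ 2 + 4 * W.a₂) ^ 2 -
      24 * (2 * (W.a₄ : Kb) + W.a₁ * W.a₃) := by
    rw [WeierstrassCurve.c₄, WeierstrassCurve.b₂, WeierstrassCurve.b₄]; push_cast; ring
  have hc6 : (W.c₆ : Kb) = -((W.a₁ : Kb) ^ 2 + 4 * W.a₂) ^ 3 +
      36 * ((W.a₁ : Kb) ^ 2 + 4 * W.a₂) * (2 * (W.a₄ : Kb) + W.a₁ * W.a₃) -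
      216 * ((W.a₃ : Kb) ^ 2 + 4 * W.a₆) := by
    rw [WeierstrassCurve.c₆, WeierstrassCurve.b₂, WeierstrassCurve.b₄, WeierstrassCurve.b₆]
    push_cast; ring
  have hu : ((vc W).u⁻¹ : Kbˣ).val = 6 := by
    rw [Units.val_inv_eq_inv_val]
    change (1 / 6 : Kb)⁻¹ = 6
    norm_num
  ext
  · rw [variableChange_a₁, hu, e1]
    change (6 : Kb) * (W.a₁ + 2 * (-(W.a₁ : Kb) / 2)) = 0
    ring
  · rw [variableChange_a₂, hu, e1, e2]
    change (6 : Kb) ^ 2 * (W.a₂ - -(W.a₁ : Kb) / 2 * W.a₁ + 3 * (-(W.b₂ : Kb) / 12) -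
      (-(W.a₁ : Kb) / 2) ^ 2) = 0
    rw [hb2]
    ring
  · rw [variableChange_a₃, hu, e1, e3]
    change (6 : Kb) ^ 3 * (W.a₃ + -(W.b₂ : Kb) / 12 * W.a₁ + 2 * (-(W.a₃ : Kb) / 2 +
      (W.a₁ : Kb) * (W.b₂ : Kb) / 24)) = 0
    ring
  · rw [variableChange_a₄, hu, e1, e2, e3, e4]
    change (6 : Kb) ^ 4 * (W.a₄ - -(W.a₁ : Kb) / 2 * W.a₃ + 2 * (-(W.b₂ : Kb) / 12) * W.a₂ -
      (-(W.a₃ : Kb) / 2 + (W.a₁ : Kb) * (W.b₂ : Kb) / 24 + -(W.b₂ : Kb) / 12 *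
        (-(W.a₁ : Kb) / 2)) * W.a₁ + 3 * (-(W.b₂ : Kb) / 12) ^ 2 -
      2 * (-(W.a₁ : Kb) / 2) * (-(W.a₃ : Kb) / 2 + (W.a₁ : Kb) * (W.b₂ : Kb) / 24)) =
      -27 * (W.c₄ : Kb)
    rw [hc4, hb2]
    ring
  · rw [variableChange_a₆, hu, e1, e2, e3, e4, e6]
    change (6 : Kb) ^ 6 * (W.a₆ + -(W.b₂ : Kb) / 12 * W.a₄ + (-(W.b₂ : Kb) / 12) ^ 2 * W.a₂ +
      (-(W.b₂ : Kb) / 12) ^ 3 - (-(W.a₃ : Kb) / 2 + (W.a₁ : Kb) * (W.b₂ : Kb) / 24) * W.a₃ -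
      (-(W.a₃ : Kb) / 2 + (W.a₁ : Kb) * (W.b₂ : Kb) / 24) ^ 2 - -(W.b₂ : Kb) / 12 *
        (-(W.a₃ : Kb) / 2 + (W.a₁ : Kb) * (W.b₂ : Kb) / 24) * W.a₁) = -54 * (W.c₆ : Kb)
    rw [hc6, hb2]
    ring

section generic

variable {K : Type*} [Field K] [DecidableEq K] {W₁ W₂ : WeierstrassCurve K}
  {C : VariableChange K} (hC : C • W₁ = W₂)

/-- transport -/
def psiG : W₂.toAffine.Point ≃+ W₁.toAffine.Point := by
  subst hC
  exact pointEquiv W₁ C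

include hC in
theorem ns_of_vc {X Y : K} (h : W₂.toAffine.Nonsingular X Y) :
    W₁.toAffine.Nonsingular (vcX C X) (vcY C X Y) := by
  subst hC
  exact (vc_nonsingular_iff W₁ C X Y).mpr h

theorem psiG_some {X Y : K} (h : W₂.toAffine.Nonsingular X Y) :
    psiG hC (.some X Y h) = .some (vcX C X) (vcY C X Y) (ns_of_vc hC h) := by
  subst hC
  rfl

end generic

/-- The equivalence of the points of the short model and of the model `W`. -/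
def Psi : (EE (W.c₄ : Kb) (W.c₆ : Kb)).toAffine.Point ≃+ ((W.map (Int.castRingHom ℚ))⁄Kb).Point :=
  psiG (vc_smul W)

variable {W}

theorem c4c6_ne (hΔ : W.Δ ≠ 0) : (W.c₄ : Kb) ^ 3 ≠ (W.c₆ : Kb) ^ 2 := by
  intro h
  have h1 : W.c₄ ^ 3 = W.c₆ ^ 2 := by exact_mod_cast h
  have h2 := W.c_relation
  rw [h1, sub_self] at h2
  exact hΔ ((mul_eq_zero.mp h2).resolve_left (by norm_num))

theorem On.map {c d : ℤ} {X Y : Kb} (σ : GQ) (e : On (c : Kb) (d : Kb) X Y) :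
    On (c : Kb) (d : Kb) (σ X) (σ Y) := by
  unfold On at *
  have h1 := congrArg σ e
  simp only [map_pow, map_sub, map_mul, map_ofNat, map_intCast] at h1
  exact h1

theorem some_congr {K : Type*} [Field K] {W : WeierstrassCurve K} {X Y X' Y' : K}
    (h : W.toAffine.Nonsingular X Y) (h' : W.toAffine.Nonsingular X' Y') (hX : X = X')
    (hY : Y = Y') : Point.some X Y h = Point.some X' Y' h' := by
  subst hX hY
  rfl

theorem Psi_mk (hΔ : W.Δ ≠ 0) {X Y : Kb} (e : On (W.c₄ : Kb) (W.c₆ : Kb) X Y) (σ : GQ) :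
    σ • Psi W (mk _ _ X Y) = Psi W (mk _ _ (σ X) (σ Y)) := by
  rw [mk_eq (c4c6_ne hΔ) e, mk_eq (c4c6_ne hΔ) (e.map σ), Psi, psiG_some, psiG_some]
  have hu : ((vc W).u : Kb) = 1 / 6 := rfl
  have hr : (vc W).r = -(W.b₂ : Kb) / 12 := rfl
  have hs : (vc W).s = -(W.a₁ : Kb) / 2 := rfl
  have ht : (vc W).t = -(W.a₃ : Kb) / 2 + (W.a₁ : Kb) * (W.b₂ : Kb) / 24 := rfl
  refine some_congr _ _ ?_ ?_
  · change σ (vcX _ _) = _
    simp only [vcX, hu, hr, map_add, map_mul, map_pow, map_div₀, map_neg, map_one, map_ofNat,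
      map_intCast]
  · change σ (vcY _ _ _) = _
    simp only [vcY, hu, hs, ht, map_add, map_mul, map_pow, map_div₀, map_neg, map_one, map_ofNat,
      map_intCast]

end Fermat.Agent.TF
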