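import Fermat.Agent.TF.IcoS

/-!
# The universal 5-torsion points
-/

set_option autoImplicit false
set_option linter.unusedSectionVars false
set_option linter.unusedVariables false

noncomputable section

namespace Fermat.Agent.TF

open WeierstrassCurve WeierstrassCurve.Affine

variable {K : Type*} [Field K] [DecidableEq K]

/-- The curve `Y² = X³ - 27 c X - 54 d`. -/
def EE (c d : K) : WeierstrassCurve K := ⟨0, 0, 0, -27 * c, -54 * d⟩

theorem EE_Δ (c d : K) : (EE c d).Δ = 2 ^ 6 * 3 ^ 9 * (c ^ 3 - d ^ 2) := by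
  simp only [EE, WeierstrassCurve.Δ, WeierstrassCurve.b₂, WeierstrassCurve.b₄, WeierstrassCurve.b₆,
    WeierstrassCurve.b₈]
  ring

/-- The point with given coordinates (`0` if not on the curve). -/
def mk (c d X Y : K) : (EE c d).toAffine.Point :=
  open Classical in
  if h : (EE c d).toAffine.Nonsingular X Y then .some X Y h else 0

/-- being on the curve -/
def On (c d X Y : K) : Prop := Y ^ 2 = X ^ 3 - 27 * c * X - 54 * d

theorem equation_iff_on {c d X Y : K} : (EE c d).toAffine.Equation X Y ↔ On c d X Y := by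
  rw [equation_iff, On]
  simp only [EE]
  constructor
  · intro h
    linear_combination h
  · intro h
    linear_combination h

variable [CharZero K]

theorem ell_EE {c d : K} (h : c ^ 3 ≠ d ^ 2) : (EE c d).Δ ≠ 0 := by
  rw [EE_Δ]
  exact mul_ne_zero (mul_ne_zero (pow_ne_zero _ two_ne_zero) (pow_ne_zero _ three_ne_zero))
    (sub_ne_zero.mpr h)

theorem isElliptic_EE {c d : K} (h : c ^ 3 ≠ d ^ 2) : (EE c d).IsElliptic :=
  ⟨isUnit_iff_ne_zero.mpr (ell_EE h)⟩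

theorem nonsing {c d X Y : K} (h : c ^ 3 ≠ d ^ 2)
    (e : On c d X Y) : (EE c d).toAffine.Nonsingular X Y := by
  have := (equation_iff_on).mpr e
  exact (equation_iff_nonsingular_of_Δ_ne_zero (ell_EE h)).mp this

variable {c d : K} (h : c ^ 3 ≠ d ^ 2)
include h

theorem mk_eq {X Y : K} (e : On c d X Y) : mk c d X Y = .some X Y (nonsing h e) := by
  rw [mk, dif_pos (nonsing h e)]

theorem mk_ne_zero {X Y : K} (e : On c d X Y) : mk c d X Y ≠ 0 := by
  rw [mk_eq h e]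
  exact Point.some_ne_zero _

theorem mk_inj {X Y X' Y' : K} (e : On c d X Y) (e' : On c d X' Y') :
    mk c d X Y = mk c d X' Y' ↔ X = X' ∧ Y = Y' := by
  rw [mk_eq h e, mk_eq h e', Point.some.injEq]

theorem On.neg {X Y : K} (e : On c d X Y) : On c d X (-Y) := by
  unfold On at *
  rw [← e]; ring

theorem exists_mk {P : (EE c d).toAffine.Point} (hP : P ≠ 0) :
    ∃ X Y, On c d X Y ∧ P = mk c d X Y := by
  rcases P with _ | ⟨X, Y, hn⟩
  · exact absurd rfl hP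
  · have h1 : On c d X Y := equation_iff_on.mp hn.1
    exact ⟨X, Y, h1, (mk_eq h h1).symm⟩

omit h in
theorem negY_EE (X Y : K) : (EE c d).toAffine.negY X Y = -Y := by
  simp only [negY, EE]
  ring

theorem mk_neg {X Y : K} (e : On c d X Y) : -mk c d X Y = mk c d X (-Y) := by
  rw [mk_eq h e, mk_eq h (On.neg h e), Point.neg_some, Point.some.injEq]
  exact ⟨rfl, negY_EE X Y⟩

theorem mk_add {X₁ Y₁ X₂ Y₂ ℓ X₃ Y₃ : K} (e₁ : On c d X₁ Y₁) (e₂ : On c d X₂ Y₂) (hX : X₁ ≠ X₂)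
    (hl : ℓ * (X₁ - X₂) = Y₁ - Y₂) (h3 : X₃ = ℓ ^ 2 - X₁ - X₂) (h4 : Y₃ = ℓ * (X₁ - X₃) - Y₁) :
    mk c d X₁ Y₁ + mk c d X₂ Y₂ = mk c d X₃ Y₃ ∧ On c d X₃ Y₃ := by
  have hs : (EE c d).toAffine.slope X₁ X₂ Y₁ Y₂ = ℓ := by
    rw [slope_of_X_ne hX, div_eq_iff (sub_ne_zero.mpr hX), hl]
  have hsum := Point.add_of_X_ne (h₁ := nonsing h e₁) (h₂ := nonsing h e₂) hX
  have hx : (EE c d).toAffine.addX X₁ X₂ ((EE c d).toAffine.slope X₁ X₂ Y₁ Y₂) = X₃ := by
    rw [hs, h3, addX]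
    simp only [EE]
    ring
  have hy : (EE c d).toAffine.addY X₁ X₂ Y₁ ((EE c d).toAffine.slope X₁ X₂ Y₁ Y₂) = Y₃ := by
    rw [addY, negAddY, hx, hs, h4, negY_EE]
    ring
  have hn : (EE c d).toAffine.Nonsingular X₃ Y₃ := by
    rw [← hx, ← hy]
    exact nonsingular_add (nonsing h e₁) (nonsing h e₂) fun hxy => hX hxy.1
  have hon : On c d X₃ Y₃ := equation_iff_on.mp hn.1
  refine ⟨?_, hon⟩
  rw [mk_eq h e₁, mk_eq h e₂, mk_eq h hon, hsum, Point.some.injEq]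
  exact ⟨hx, hy⟩

theorem mk_dbl {X₁ Y₁ ℓ X₃ Y₃ : K} (e₁ : On c d X₁ Y₁) (hY : Y₁ ≠ 0)
    (hl : ℓ * (2 * Y₁) = 3 * X₁ ^ 2 - 27 * c) (h3 : X₃ = ℓ ^ 2 - 2 * X₁)
    (h4 : Y₃ = ℓ * (X₁ - X₃) - Y₁) :
    mk c d X₁ Y₁ + mk c d X₁ Y₁ = mk c d X₃ Y₃ ∧ On c d X₃ Y₃ := by
  have hne : Y₁ ≠ (EE c d).toAffine.negY X₁ Y₁ := by
    rw [negY_EE]
    intro h0
    exact hY (self_eq_neg.mp h0)
  have h2Y : (2 * Y₁) ≠ 0 := mul_ne_zero two_ne_zero hY
  have hs : (EE c d).toAffine.slope X₁ X₁ Y₁ Y₁ = ℓ := by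
    rw [slope_of_Y_ne rfl hne, negY_EE, div_eq_iff (by rw [sub_neg_eq_add, ← two_mul]; exact h2Y)]
    simp only [EE]
    linear_combination -hl
  have hsum := Point.add_self_of_Y_ne (h₁ := nonsing h e₁) hne
  have hx : (EE c d).toAffine.addX X₁ X₁ ((EE c d).toAffine.slope X₁ X₁ Y₁ Y₁) = X₃ := by
    rw [hs, h3, addX]
    simp only [EE]
    ring
  have hy : (EE c d).toAffine.addY X₁ X₁ Y₁ ((EE c d).toAffine.slope X₁ X₁ Y₁ Y₁) = Y₃ := by
    rw [addY, negAddY, hx, hs, h4, negY_EE]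
    ring
  have hn : (EE c d).toAffine.Nonsingular X₃ Y₃ := by
    rw [← hx, ← hy]
    exact nonsingular_add (nonsing h e₁) (nonsing h e₁) fun hxy => hne hxy.2
  have hon : On c d X₃ Y₃ := equation_iff_on.mp hn.1
  refine ⟨?_, hon⟩
  rw [mk_eq h e₁, mk_eq h hon, hsum, Point.some.injEq]
  exact ⟨hx, hy⟩

/-- a point with a slope polynomial is not of order two -/
theorem ne_zero_of_slope {X Y ℓ : K} (e : On c d X Y) (hl : ℓ * (2 * Y) = 3 * X ^ 2 - 27 * c) :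
    Y ≠ 0 := by
  rintro rfl
  have h1 : X ^ 2 = 9 * c := by linear_combination (-1 / 3) * hl
  unfold On at e
  have h2 : 3 * d = - c * X := by linear_combination (1 / 18) * e + (X / 18) * h1
  apply h
  linear_combination (-1 / 9) * c ^ 2 * h1 - (1 / 9) * (3 * d - c * X) * h2

end Fermat.Agent.TF
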