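import Fermat.Agent.TF.Pts

/-!
# The basis `R`, `S` of the 5-torsion
-/

set_option autoImplicit false
set_option linter.unusedSectionVars false
set_option linter.unusedVariables false

noncomputable section

namespace Fermat.Agent.TF

open WeierstrassCurve WeierstrassCurve.Affine

variable {K : Type*} [Field K] [DecidableEq K]

/-- The point `R`. -/
def RR (c d x y : K) : (EE c d).toAffine.Point := mk c d (x1 x y) (y1 x y)

/-- The point `S`. -/
def SS (ζ c d x y : K) : (EE c d).toAffine.Point := mk c d (xs5 ζ x y / 5) (ys5 ζ x y / 5)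

variable [CharZero K] {c d x y : K} (hc : hF x y = c) (hd : tF x y = d)

include hc hd

theorem on1 : On c d (x1 x y) (y1 x y) := by
  subst hc hd
  exact eq1 x y

theorem on2 : On c d (x2 x y) (y2 x y) := by
  subst hc hd
  exact eq2 x y

variable (h : c ^ 3 ≠ d ^ 2)
include h

theorem fF_ne : fF x y ≠ 0 := by
  intro h0
  apply h
  rw [← sub_eq_zero, ← hc, ← hd, syz, h0]
  ring

theorem dblR : RR c d x y + RR c d x y = mk c d (x2 x y) (y2 x y) := by
  subst hc hd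
  have h1 := slope1 x y
  exact (mk_dbl h (eq1 x y) (ne_zero_of_slope h (eq1 x y) h1) h1 (dblx1 x y).symm
    (dbly1 x y).symm).1

theorem dblR2 : mk c d (x2 x y) (y2 x y) + mk c d (x2 x y) (y2 x y) = - RR c d x y := by
  subst hc hd
  have h1 := slope2 x y
  rw [RR, mk_neg h (eq1 x y)]
  exact (mk_dbl h (eq2 x y) (ne_zero_of_slope h (eq2 x y) h1) h1 (dblx2 x y).symm
    (dbly2 x y).symm).1

theorem fiveR : 5 • RR c d x y = 0 := by
  have h1 := dblR hc hd h
  have h2 := dblR2 hc hd h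
  rw [← h1] at h2
  have h3 : 5 • RR c d x y = (RR c d x y + RR c d x y + (RR c d x y + RR c d x y)) + RR c d x y := by
    abel
  rw [h3, h2, neg_add_cancel]

theorem RR_ne_zero : RR c d x y ≠ 0 := mk_ne_zero h (on1 hc hd)

variable {ζ : K} (hζ : 1 + ζ + ζ ^ 2 + ζ ^ 3 + ζ ^ 4 = 0)
include hζ

theorem x1g_ne : x1g ζ x y ≠ x1 x y := by
  intro h0
  have h1 := x1g_sub hζ x y
  rw [h0, sub_self, zero_mul] at h1
  have h2 : fF x y ^ 2 = 0 := by
    have h3 : (180 : K) ≠ 0 := by norm_num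
    exact (mul_eq_zero.mp h1.symm).resolve_left h3
  exact fF_ne hc hd h (pow_eq_zero_iff two_ne_zero |>.mp h2)

theorem RR_g_sub : RR c d (ζ ^ 3 * x) (ζ ^ 2 * y) + - RR c d x y = SS ζ c d x y ∧
    On c d (xs5 ζ x y / 5) (ys5 ζ x y / 5) := by
  have e1 := on1 hc hd
  have e2 : On c d (x1g ζ x y) (y1g ζ x y) := by
    rw [← x1_g hζ, ← y1_g hζ]
    exact on1 (by rw [hF_g hζ, hc]) (by rw [tF_g hζ, hd])
  have h5 : (5 : K) ≠ 0 := by norm_num
  have key := mk_add h (ℓ := mu5 ζ x y / 5) (X₃ := xs5 ζ x y / 5) (Y₃ := ys5 ζ x y / 5) e2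
    (On.neg h e1) (x1g_ne hc hd h hζ)
    (by linear_combination (1 / 5) * mu_eq hζ x y)
    (by linear_combination (-1 / 25) * xs_eq hζ x y)
    (by linear_combination (-1 / 25) * ys_eq hζ x y - (1 / 5) * mu_eq hζ x y)
  rw [RR, RR, mk_neg h e1, x1_g hζ, y1_g hζ]
  exact key

theorem onS : On c d (xs5 ζ x y / 5) (ys5 ζ x y / 5) := (RR_g_sub hc hd h hζ).2

theorem RR_g : RR c d (ζ ^ 3 * x) (ζ ^ 2 * y) = RR c d x y + SS ζ c d x y := by
  rw [← (RR_g_sub hc hd h hζ).1]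
  abel

theorem SS_ne_zero : SS ζ c d x y ≠ 0 := mk_ne_zero h (onS hc hd h hζ)

omit h hc hd [CharZero K] in
theorem SS_g : SS ζ c d (ζ ^ 3 * x) (ζ ^ 2 * y) = SS ζ c d x y := by
  rw [SS, SS, xs_g hζ, ys_g hζ]

theorem fiveS : 5 • SS ζ c d x y = 0 := by
  have h1 := RR_g hc hd h hζ
  have h2 : 5 • RR c d (ζ ^ 3 * x) (ζ ^ 2 * y) = 0 :=
    fiveR (by rw [hF_g hζ, hc]) (by rw [tF_g hζ, hd]) h
  rw [h1, smul_add, fiveR hc hd h, zero_add] at h2
  exact h2

theorem RR_gk (k : ℕ) : RR c d (ζ ^ (3 * k) * x) (ζ ^ (2 * k) * y) =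
    RR c d x y + k • SS ζ c d x y ∧ hF (ζ ^ (3 * k) * x) (ζ ^ (2 * k) * y) = c ∧
      tF (ζ ^ (3 * k) * x) (ζ ^ (2 * k) * y) = d ∧
      SS ζ c d (ζ ^ (3 * k) * x) (ζ ^ (2 * k) * y) = SS ζ c d x y := by
  induction k with
  | zero => simp [hc, hd]
  | succ k ih =>
    obtain ⟨h1, h2, h3, h4⟩ := ih
    have e1 : ζ ^ (3 * (k + 1)) * x = ζ ^ 3 * (ζ ^ (3 * k) * x) := by ring
    have e2 : ζ ^ (2 * (k + 1)) * y = ζ ^ 2 * (ζ ^ (2 * k) * y) := by ring
    rw [e1, e2, RR_g h2 h3 h hζ, h1, SS_g hζ, h4, hF_g hζ, tF_g hζ]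
    refine ⟨?_, h2, h3, rfl⟩
    rw [add_smul, one_smul, add_assoc]

theorem dblS : SS ζ c d x y + SS ζ c d x y = mk c d (xt5 ζ x y / 5) (yt5 ζ x y / 5) ∧
    On c d (xt5 ζ x y / 5) (yt5 ζ x y / 5) := by
  have e := onS hc hd h hζ
  have h5 : (5 : K) ≠ 0 := by norm_num
  have hl : ls5 ζ x y / 5 * (2 * (ys5 ζ x y / 5)) = 3 * (xs5 ζ x y / 5) ^ 2 - 27 * c := by
    have := ls_eq hζ x y
    rw [hc] at this
    linear_combination (1 / 25) * this
  exact mk_dbl h e (ne_zero_of_slope h e hl) hl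
    (by linear_combination (-1 / 25) * xt_eq hζ x y)
    (by linear_combination (-1 / 25) * yt_eq hζ x y)

theorem on_dblS : On c d (xt5 ζ x y / 5) (yt5 ζ x y / 5) := (dblS hc hd h hζ).2

/-- Linear independence. -/
theorem indep {a b : ℕ} (hab : a • RR c d x y + b • SS ζ c d x y = 0) : 5 ∣ a ∧ 5 ∣ b := by
  have h5R := fiveR hc hd h
  have h5S := fiveS hc hd h hζ
  have hred : ∀ (P : (EE c d).toAffine.Point), 5 • P = 0 → ∀ n : ℕ, n • P = (n % 5) • P := by
    intro P hP n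
    conv_lhs => rw [← Nat.mod_add_div n 5]
    rw [add_smul, mul_comm, mul_smul, hP, smul_zero, add_zero]
  by_cases ha : 5 ∣ a
  · refine ⟨ha, ?_⟩
    obtain ⟨k, rfl⟩ := ha
    rw [mul_comm 5 k, mul_smul, h5R, smul_zero, zero_add] at hab
    by_contra hb
    have hcop : Nat.Coprime b 5 := ((Nat.Prime.coprime_iff_not_dvd (by norm_num)).mpr hb).symm
    have hord : addOrderOf (SS ζ c d x y) ∣ Nat.gcd b 5 :=
      Nat.dvd_gcd (addOrderOf_dvd_of_nsmul_eq_zero hab) (addOrderOf_dvd_of_nsmul_eq_zero h5S)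
    rw [hcop, Nat.dvd_one, AddMonoid.addOrderOf_eq_one_iff] at hord
    exact SS_ne_zero hc hd h hζ hord
  · exfalso
    have hcop : Nat.Coprime a 5 := ((Nat.Prime.coprime_iff_not_dvd (by norm_num)).mpr ha).symm
    obtain ⟨u, hu⟩ : ∃ u : ℕ, (u * a) % 5 = 1 := by
      have h1 : a % 5 ≠ 0 := fun h0 => ha (Nat.dvd_of_mod_eq_zero h0)
      have h2 : a % 5 < 5 := Nat.mod_lt _ (by norm_num)
      interval_cases h3 : a % 5
      · exact absurd rfl h1
      · exact ⟨1, by omega⟩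
      · exact ⟨3, by omega⟩
      · exact ⟨2, by omega⟩
      · exact ⟨4, by omega⟩
    have h1 : RR c d x y + (u * b) • SS ζ c d x y = 0 := by
      have h2 := congrArg (fun z => u • z) hab
      simp only [smul_add, smul_zero, ← mul_smul] at h2
      rw [hred _ h5R (u * a), hu, one_smul] at h2
      exact h2
    obtain ⟨h2, h3, h4, -⟩ := RR_gk hc hd h hζ (u * b)
    rw [h1] at h2
    exact RR_ne_zero h3 h4 h h2

end Fermat.Agent.TF
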